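import Fermat.Agent.Moduli.Main
import Fermat.Agent.J.Places
import Fermat.Agent.MFF.CoeffDescent
import Fermat.Agent.DR.Mod2.ModPolyShape
import Fermat.Agent.QbarInst

/-!
# Places of the modular function field attached to points of the upper half plane
-/

set_option autoImplicit false

noncomputable section

open AlgebraicCurve ModularCurve FermatJ UpperHalfPlane

namespace Fermat.Agent.Moduli

section

variable {K : Type*} [Field K] [IsAlgClosed K] [Algebra ℚ K] [Algebra K ℂ] {N : ℕ} [NeZero N]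

variable (K N) in
/-- the embedding of the function field in Laurent series by local expansions at `τ₀` -/
def lamFull (τ₀ : ℍ) : modularFunctionFieldFullC K N →+* LaurentSeries ℂ :=
  (lamLoc K N τ₀).comp ((F0 K N).subtype.comp
    ((F0Equiv K N).symm : modularFunctionFieldFullC K N ≃+* F0 K N).toRingHom)

theorem F0Equiv_symm_eq {d : ℕ} [NeZero d] (h : d ∣ N) {y : modularFunctionFieldFullC K N}
    (hy : (y : LaurentSeries K) = qExpand K d (jqModC K)) :
    ((F0Equiv K N).symm y : F0 K N) = (⟨algebraMap (holo K N) (FunN K N) (jD K N d h),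
      algebraMap_jD_mem_F0 h⟩ : F0 K N) := by
  rw [AlgEquiv.symm_apply_eq]
  apply Subtype.ext
  apply qExpand_injective (R := K) (N := N)
  rw [qExpand_F0Equiv, hy, lamInf_algebraMap, expInf_jD, jqK_eq]

theorem lamFull_j {τ₀ : ℍ} {d : ℕ} [NeZero d] (h : d ∣ N) {y : modularFunctionFieldFullC K N}
    (hy : (y : LaurentSeries K) = qExpand K d (jqModC K)) :
    lamFull K N τ₀ y = HahnSeries.ofPowerSeries ℤ ℂ (localPS τ₀ (jabd d 0 1)) := by
  have : lamFull K N τ₀ y = lamLoc K N τ₀ ((F0Equiv K N).symm y : F0 K N) := rfl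
  rw [this, F0Equiv_symm_eq h hy, lamLoc_algebraMap]
  rfl

theorem lamFull_const (τ₀ : ℍ) (a : K) :
    lamFull K N τ₀ (algebraMap K _ a) = HahnSeries.C (algebraMap K ℂ a) := by
  have : lamFull K N τ₀ (algebraMap K _ a) =
    lamLoc K N τ₀ ((F0Equiv K N).symm (algebraMap K _ a) : F0 K N) := rfl
  rw [this, AlgEquiv.commutes]
  exact lamLoc_const τ₀ a

omit [IsAlgClosed K] [Algebra K ℂ] [Algebra ℚ K] [NeZero N] in
theorem sub_const_ne_zero {d : ℕ} [hd : NeZero d] {y : modularFunctionFieldFullC K N}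
    (hy : (y : LaurentSeries K) = qExpand K d (jqModC K)) (b : K) :
    y - algebraMap K _ b ≠ 0 := by
  intro h
  rw [sub_eq_zero] at h
  have h1 : (y : LaurentSeries K) = algebraMap K (LaurentSeries K) b := by rw [h]; rfl
  rw [hy] at h1
  have h2 := congrArg (fun φ : LaurentSeries K => φ.coeff ((d : ℤ) * (-1))) h1
  simp only [qExpand_coeff_mul] at h2
  rw [Fermat.Agent.DR.Mod2.lead_jqModC.2] at h2
  have h3 : algebraMap K (LaurentSeries K) b = HahnSeries.C b := by
    rw [algebraMap_laurentSeries_eq_single, HahnSeries.C_apply]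
  rw [h3, HahnSeries.C_apply, HahnSeries.coeff_single_of_ne] at h2
  · exact one_ne_zero h2
  · have := hd.out
    omega

theorem order_pos_of_coeff {P : PowerSeries ℂ} (h0 : P.coeff 0 = 0) (hP : P ≠ 0) :
    0 < (HahnSeries.ofPowerSeries ℤ ℂ P).order := by
  have h1 : P.order ≠ ⊤ := by rwa [Ne, PowerSeries.order_eq_top]
  obtain ⟨n, hn⟩ := ENat.ne_top_iff_exists.1 h1
  rw [order_ofPowerSeries hn.symm]
  have h2 := (PowerSeries.order_eq_nat.1 hn.symm).1
  have : n ≠ 0 := by rintro rfl; exact h2 h0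
  omega

theorem lamFull_sub_pos {τ₀ : ℍ} {d : ℕ} [NeZero d] (h : d ∣ N) {y : modularFunctionFieldFullC K N}
    (hy : (y : LaurentSeries K) = qExpand K d (jqModC K)) {b : K}
    (hb : jf (aff d 0 1 τ₀) = algebraMap K ℂ b) :
    0 < (lamFull K N τ₀ (y - algebraMap K _ b)).order := by
  have h1 : lamFull K N τ₀ (y - algebraMap K _ b) = HahnSeries.ofPowerSeries ℤ ℂ
      (localPS τ₀ (jabd d 0 1) - PowerSeries.C (algebraMap K ℂ b)) := by
    rw [map_sub, lamFull_j h hy, lamFull_const, map_sub, HahnSeries.ofPowerSeries_C]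
  rw [h1]
  apply order_pos_of_coeff
  · have h2 := (hasPS_local τ₀ (mdifferentiable_jabd d 0 1)).coeff_zero (wc_self τ₀)
    rw [jabd, hb] at h2
    rw [map_sub, h2, PowerSeries.coeff_zero_C, sub_self]
  · intro h0
    rw [h0, map_zero, map_eq_zero] at h1
    exact sub_const_ne_zero hy b h1

/-- **The place of `X₀(N)` attached to a point of the upper half plane with algebraic `j`.** -/
theorem exists_place (τ₀ : ℍ) {a : K} (ha : jf τ₀ = algebraMap K ℂ a) :
    ∃ x : Place K (modularFunctionFieldFullC K N), ∀ (d : ℕ) [NeZero d], d ∣ N →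
      ∀ y : modularFunctionFieldFullC K N, (y : LaurentSeries K) = qExpand K d (jqModC K) →
      ∀ b : K, jf (aff d 0 1 τ₀) = algebraMap K ℂ b → 0 < x.ord (y - algebraMap K _ b) := by
  have hK : ∀ a : K, 0 ≤ (lamFull K N τ₀ (algebraMap K _ a)).order := fun a => by
    rw [lamFull_const]
    exact order_const_nonneg _
  have h1 : jf (aff 1 0 1 τ₀) = algebraMap K ℂ a := by
    rw [← ha]
    exact congrFun jabd_one τ₀
  have hne : ∃ l, (lamFull K N τ₀ l).order < 0 := by
    have h2 := lamFull_sub_pos (K := K) (N := N) (τ₀ := τ₀) (d := 1) (one_dvd N)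
      (y := ⟨jqModC K, jqModC_mem_full K N⟩) (qExpand_one_apply _).symm h1
    refine ⟨(⟨jqModC K, jqModC_mem_full K N⟩ - algebraMap K _ a)⁻¹, ?_⟩
    rw [map_inv₀, order_inv']
    omega
  refine ⟨placeOfLaurent (lamFull K N τ₀) hK hne, fun d _ hd y hy b hb => ?_⟩
  exact ord_placeOfLaurent_pos (lamFull_sub_pos hd hy hb)

end

section Bar

variable {N : ℕ} [NeZero N]

theorem exists_place_of_eq (ι : AlgebraicClosure ℚ →ₐ[ℚ] ℂ)
    (F : IntermediateField (AlgebraicClosure ℚ) (LaurentSeries (AlgebraicClosure ℚ)))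
    (hF : F = modularFunctionFieldFullC (AlgebraicClosure ℚ) N) (τ₀ : ℍ)
    {a b : AlgebraicClosure ℚ} (ha : jf τ₀ = ι a) (hb : jf (aff N 0 1 τ₀) = ι b) :
    ∃ x : Place (AlgebraicClosure ℚ) F,
      (∀ y : F, (y : LaurentSeries (AlgebraicClosure ℚ)) = jqModC (AlgebraicClosure ℚ) →
        0 < x.ord (y - algebraMap _ _ a)) ∧
      (∀ y : F, (y : LaurentSeries (AlgebraicClosure ℚ)) =
        qExpand (AlgebraicClosure ℚ) N (jqModC (AlgebraicClosure ℚ)) →
        0 < x.ord (y - algebraMap _ _ b)) := by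
  subst hF
  let _ : Algebra (AlgebraicClosure ℚ) ℂ := ι.toRingHom.toAlgebra
  obtain ⟨x, hx⟩ := exists_place (K := AlgebraicClosure ℚ) (N := N) τ₀ (a := a) ha
  refine ⟨x, fun y hy => ?_, fun y hy => hx N dvd_rfl y hy b hb⟩
  refine hx 1 (one_dvd N) y (hy.trans (qExpand_one_apply _).symm) a ?_
  exact (congrFun jabd_one τ₀).trans ha

/-- **The place of `X₀(N)` attached to a point of the upper half plane with algebraic `j`.** -/
theorem exists_place_bar (ι : AlgebraicClosure ℚ →ₐ[ℚ] ℂ) (τ₀ : ℍ)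
    {a b : AlgebraicClosure ℚ} (ha : jf τ₀ = ι a) (hb : jf (aff N 0 1 τ₀) = ι b) :
    ∃ x : Place (AlgebraicClosure ℚ) (modularFunctionFieldBar N),
      (∀ y : modularFunctionFieldBar N,
        (y : LaurentSeries (AlgebraicClosure ℚ)) = jqModC (AlgebraicClosure ℚ) →
        0 < x.ord (y - algebraMap _ _ a)) ∧
      (∀ y : modularFunctionFieldBar N, (y : LaurentSeries (AlgebraicClosure ℚ)) =
        qExpand (AlgebraicClosure ℚ) N (jqModC (AlgebraicClosure ℚ)) →
        0 < x.ord (y - algebraMap _ _ b)) :=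
  exists_place_of_eq ι _ (MFF.modularFunctionFieldBar_eq N) τ₀ ha hb

end Bar

section Final

open Polynomial Fermat.Agent.S28 Fermat.Agent.Mazur.Moduli WeierstrassCurve
open scoped WeierstrassCurve.Affine

/-- **B3a**: the quotients of `W` by its subgroups of order `N`, the roots of the modular
polynomial, and the corresponding places of `X₀(N)`. -/
theorem exists_moduli [DecidableEq (AlgebraicClosure ℚ)] (W : WeierstrassCurve ℚ) (hΔ : W.Δ ≠ 0)
    {N : ℕ} [hp : Fact N.Prime]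
    (hodd : N % 2 = 1) {Φ : ℤ[X][X]} (hΦ : ModPolySpec N Φ) :
    ∃ pt : Option (Fin N) → (W⁄(AlgebraicClosure ℚ)).Point,
      (∀ i, pt i ≠ 0 ∧ N • pt i = 0) ∧
      PhiR Φ (jq (W⁄(AlgebraicClosure ℚ))) =
        ∏ i, (Polynomial.X - Polynomial.C (veluJ (W⁄(AlgebraicClosure ℚ)) (pt i) N)) ∧
      (∀ P : (W⁄(AlgebraicClosure ℚ)).Point, P ≠ 0 → N • P = 0 →
        ∃ i, P ∈ AddSubgroup.zmultiples (pt i) ∧
        WeierstrassCurve.Δ (velu (W⁄(AlgebraicClosure ℚ)) P N) ≠ 0 ∧
        veluJ (W⁄(AlgebraicClosure ℚ)) P N = veluJ (W⁄(AlgebraicClosure ℚ)) (pt i) N) ∧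
      (∀ i k, pt i ∈ AddSubgroup.zmultiples (pt k) → i = k) ∧
      (∀ i, (PhiR Φ (veluJ (W⁄(AlgebraicClosure ℚ)) (pt i) N)).eval
        (jq (W⁄(AlgebraicClosure ℚ))) = 0) ∧
      (∀ i, ∃ x : Place (AlgebraicClosure ℚ) (modularFunctionFieldBar N),
        (∀ y : modularFunctionFieldBar N,
          (y : LaurentSeries (AlgebraicClosure ℚ)) = jqModC (AlgebraicClosure ℚ) →
          0 < x.ord (y - algebraMap _ _ (jq (W⁄(AlgebraicClosure ℚ))))) ∧
        (∀ y : modularFunctionFieldBar N, (y : LaurentSeries (AlgebraicClosure ℚ)) =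
          qExpand (AlgebraicClosure ℚ) N (jqModC (AlgebraicClosure ℚ)) →
          0 < x.ord (y - algebraMap _ _ (veluJ (W⁄(AlgebraicClosure ℚ)) (pt i) N)))) := by
  obtain ⟨ι⟩ : Nonempty (AlgebraicClosure ℚ →ₐ[ℚ] ℂ) := ⟨IsAlgClosed.lift⟩
  obtain ⟨pt, h1, h2, h3, h4, h5, h6⟩ := exists_quotients_velu ι W hΔ hodd hΦ
  refine ⟨pt, h1, h2, h3, h4, h5, fun i => ?_⟩
  obtain ⟨τ₁, t1, t2⟩ := h6 i
  exact exists_place_bar ι τ₁ t1 t2

end Final

end Fermat.Agent.Moduli
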