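import Fermat.Agent.Moduli.ModEq
import Fermat.Agent.ECRed.Inertia
import Fermat.Agent.EllTorsion.Card

/-!
# Vélu's invariants of a cyclic quotient and the analytic parametrisation
-/

set_option autoImplicit false

noncomputable section

open WeierstrassCurve WeierstrassCurve.Affine

namespace Fermat.Agent.Moduli

theorem sum_Ico_eq_two_mul {G R : Type*} [AddCommGroup G] [CommRing R] (f : G → R)
    (hf : ∀ g, f (-g) = f g) {N : ℕ} (hodd : N % 2 = 1) {P : G} (hP : N • P = 0) :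
    ∑ k ∈ Finset.Ico 1 N, f (k • P) = 2 * ∑ k ∈ Finset.Icc 1 ((N - 1) / 2), f (k • P) := by
  obtain ⟨m, rfl⟩ : ∃ m, N = 2 * m + 1 := ⟨N / 2, by omega⟩
  have e1 : (2 * m + 1 - 1) / 2 = m := by omega
  rw [e1, ← Finset.sum_Ico_consecutive _ (show 1 ≤ m + 1 by omega) (show m + 1 ≤ 2 * m + 1 by omega)]
  have e2 : ∑ k ∈ Finset.Ico (m + 1) (2 * m + 1), f (k • P) = ∑ k ∈ Finset.Ico 1 (m + 1), f (k • P) := by
    have h := Finset.sum_Ico_reflect (fun k => f (k • P)) 1 (m := m + 1) (n := 2 * m + 1)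
      (by omega)
    have e3 : 2 * m + 1 + 1 - (m + 1) = m + 1 := by omega
    have e4 : 2 * m + 1 + 1 - 1 = 2 * m + 1 := by omega
    rw [e3, e4] at h
    rw [← h]
    refine Finset.sum_congr rfl fun k hk => ?_
    rw [Finset.mem_Ico] at hk
    have : (2 * m + 1 - k) • P = -(k • P) := by
      rw [eq_neg_iff_add_eq_zero, ← add_smul, Nat.sub_add_cancel (by omega), hP]
    rw [this, hf]
  rw [e2]
  have e5 : Finset.Icc 1 m = Finset.Ico 1 (m + 1) := by ext; simp
  rw [e5]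
  ring

section Def

variable {K : Type*} [Field K]

/-- abscissa of a point (`0` at infinity) -/
def xco {E : WeierstrassCurve K} : E.toAffine.Point → K
  | .zero => 0
  | .some x _ _ => x

@[simp] theorem xco_some {E : WeierstrassCurve K} {x y : K} (h : E.toAffine.Nonsingular x y) :
    xco (.some x y h) = x := rfl

@[simp] theorem xco_zero {E : WeierstrassCurve K} : xco (0 : E.toAffine.Point) = 0 := rfl

theorem xco_neg {E : WeierstrassCurve K} (P : E.toAffine.Point) : xco (-P) = xco P := by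
  rcases P with _ | ⟨x, y, h⟩
  · rfl
  · rw [Point.neg_some]; rfl

variable [DecidableEq K] (E : WeierstrassCurve K)

/-- Vélu's `t` -/
def vT (P : E.toAffine.Point) (N : ℕ) : K :=
  ∑ k ∈ Finset.Icc 1 ((N - 1) / 2), (6 * xco (k • P) ^ 2 + E.b₂ * xco (k • P) + E.b₄)

/-- Vélu's `w` -/
def vW (P : E.toAffine.Point) (N : ℕ) : K :=
  ∑ k ∈ Finset.Icc 1 ((N - 1) / 2), (10 * xco (k • P) ^ 3 + 2 * E.b₂ * xco (k • P) ^ 2 +
    3 * E.b₄ * xco (k • P) + E.b₆)

/-- `c₄` of the quotient -/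
def vc₄ (P : E.toAffine.Point) (N : ℕ) : K := E.c₄ + 240 * vT E P N

/-- `c₆` of the quotient -/
def vc₆ (P : E.toAffine.Point) (N : ℕ) : K := E.c₆ + 504 * E.b₂ * vT E P N + 6048 * vW E P N

/-- `j` of the quotient -/
def vJ (P : E.toAffine.Point) (N : ℕ) : K :=
  1728 * vc₄ E P N ^ 3 / (vc₄ E P N ^ 3 - vc₆ E P N ^ 2)

end Def

section Complex

open UpperHalfPlane Fermat.Agent.VVMF FermatJ PeriodPair

/-- The variable change from the short form. -/
def toShort (E : WeierstrassCurve ℂ) : VariableChange ℂ where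
  u := 1
  r := -E.b₂ / 12
  s := -E.a₁ / 2
  t := -(E.a₁ * (-E.b₂ / 12) + E.a₃) / 2

theorem toShort_smul (E : WeierstrassCurve ℂ) {L : PeriodPair} (h2 : L.g₂ = E.c₄ / 12)
    (h3 : L.g₃ = E.c₆ / 216) : toShort E • E = crv L := by
  ext
  · simp only [toShort, variableChange_a₁, crv, Units.val_inv_eq_inv_val, Units.val_one]
    ring
  · simp only [toShort, variableChange_a₂, crv, Units.val_inv_eq_inv_val, Units.val_one, b₂]
    ring
  · simp only [toShort, variableChange_a₃, crv, Units.val_inv_eq_inv_val, Units.val_one, b₂]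
    ring
  · simp only [toShort, variableChange_a₄, crv, Units.val_inv_eq_inv_val, Units.val_one, b₂, h2,
      c₄, b₄]
    ring
  · simp only [toShort, variableChange_a₆, crv, Units.val_inv_eq_inv_val, Units.val_one, b₂, h3,
      c₆, b₄, b₆]
    ring

variable (E : WeierstrassCurve ℂ) {c : ℂ} {hc : c ≠ 0} {τ : ℍ}

/-- data: `E` is uniformised by the lattice `c (ℤ τ + ℤ)`. -/
structure Unif (E : WeierstrassCurve ℂ) (c : ℂ) (hc : c ≠ 0) (τ : ℍ) : Prop where
  g2 : (periodPair c hc τ).g₂ = E.c₄ / 12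
  g3 : (periodPair c hc τ).g₃ = E.c₆ / 216

theorem exists_unif (hΔ : E.Δ ≠ 0) : ∃ (c : ℂ) (hc : c ≠ 0) (τ : ℍ), Unif E c hc τ := by
  obtain ⟨c, hc, τ, h2, h3⟩ := exists_periodPair (A := E.c₄ / 12) (B := E.c₆ / 216) (by
    have := E.c_relation
    intro h
    apply hΔ
    have h2 : 1728 * E.Δ = 0 := by rw [this]; linear_combination 1728 * h
    simpa using h2)
  exact ⟨c, hc, τ, h2, h3⟩

variable {E}

theorem Unif.c₄_cube (h : Unif E c hc τ) : E.c₄ ^ 3 = jf τ * E.Δ := by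
  have h1 := crv_c₄_cube hc τ
  rw [crv_c₄, crv_Δ, h.g2, h.g3] at h1
  have := E.c_relation
  linear_combination h1 - jf τ * this / 1728

variable (hU : Unif E c hc τ)

include hU in
theorem Unif.smul_eq : toShort E • E = crv (periodPair c hc τ) := toShort_smul E hU.g2 hU.g3

instance isElliptic_crv : (crv (periodPair c hc τ)).IsElliptic :=
  ⟨isUnit_iff_ne_zero.2 (crv_Δ_ne_zero hc τ)⟩

/-- the parametrisation of `E` -/
def Unif.par : ℂ →+ E.toAffine.Point :=
  (ECRed.vcEquivOfEq (toShort E) hU.smul_eq.symm).toAddMonoidHom.comp (unif (periodPair c hc τ))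

theorem Unif.par_eq_zero_iff {z : ℂ} : hU.par z = 0 ↔ z ∈ (periodPair c hc τ).lattice := by
  rw [← unif_eq_zero_iff (L := periodPair c hc τ)]
  exact (ECRed.vcEquivOfEq (toShort E) hU.smul_eq.symm).map_eq_zero_iff

theorem Unif.par_surjective : Function.Surjective hU.par :=
  (ECRed.vcEquivOfEq (toShort E) hU.smul_eq.symm).surjective.comp unif_surjective

theorem Unif.xco_par {z : ℂ} (hz : z ∉ (periodPair c hc τ).lattice) :
    xco (hU.par z) = ℘[periodPair c hc τ] z - E.b₂ / 12 := by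
  have h1 : hU.par z = ECRed.vcEquivOfEq (toShort E) hU.smul_eq.symm
    (unif (periodPair c hc τ) z) := rfl
  rw [unif_apply, toPt_of_notMem hz] at h1
  obtain ⟨h', e⟩ := ECRed.vcEquivOfEq_some (toShort E) hU.smul_eq.symm
    ((crv (periodPair c hc τ)).toAffine.equation_iff_nonsingular.mp (equation_wp hz))
  rw [h1, e, xco_some]
  simp only [ECRed.vcX, toShort, Units.val_one]
  ring

section Quot

variable {N : ℕ} {z : ℂ} {L' : PeriodPair}

theorem Unif.nsmul_par (k : ℕ) :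
    k • hU.par z = hU.par (k * z) := by
  rw [← map_nsmul, nsmul_eq_mul]

include hU in
theorem Unif.vc₄_eq (h : IsExt (periodPair c hc τ) L' N z) (hodd : N % 2 = 1)
    (hN : N • hU.par z = 0) : vc₄ E (hU.par z) N = 12 * L'.g₂ := by
  have hs := sum_Ico_eq_two_mul (fun P : E.toAffine.Point =>
    (6 * xco P ^ 2 + E.b₂ * xco P + E.b₄)) (fun P => by simp only [xco_neg]) hodd hN
  rw [vc₄, vT, h.g₂_eq, hU.g2]
  have e : ∑ k ∈ Finset.Ico 1 N, (6 * xco (k • hU.par z) ^ 2 + E.b₂ * xco (k • hU.par z) + E.b₄) =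
      6 * ∑ i ∈ Finset.Ico 1 N, (℘[periodPair c hc τ] (i * z) ^ 2 - E.c₄ / 12 / 12) := by
    rw [Finset.mul_sum]
    refine Finset.sum_congr rfl fun k hk => ?_
    rw [hU.nsmul_par, hU.xco_par (h.notMem hk), c₄]
    ring
  rw [e] at hs
  linear_combination -120 * hs

include hU in
theorem Unif.vc₆_eq (h : IsExt (periodPair c hc τ) L' N z) (hodd : N % 2 = 1)
    (hN : N • hU.par z = 0) : vc₆ E (hU.par z) N = 216 * L'.g₃ := by
  have hs := sum_Ico_eq_two_mul (fun P : E.toAffine.Point =>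
    504 * E.b₂ * (6 * xco P ^ 2 + E.b₂ * xco P + E.b₄) +
    6048 * (10 * xco P ^ 3 + 2 * E.b₂ * xco P ^ 2 +
    3 * E.b₄ * xco P + E.b₆)) (fun P => by simp only [xco_neg]) hodd hN
  rw [vc₆, vT, vW, h.g₃_eq, hU.g3, hU.g2]
  have e : ∑ k ∈ Finset.Ico 1 N, (504 * E.b₂ *
      (6 * xco (k • hU.par z) ^ 2 + E.b₂ * xco (k • hU.par z) + E.b₄) +
      6048 * (10 * xco (k • hU.par z) ^ 3 + 2 * E.b₂ * xco (k • hU.par z) ^ 2 +
      3 * E.b₄ * xco (k • hU.par z) + E.b₆)) =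
      60480 * ∑ i ∈ Finset.Ico 1 N, (℘[periodPair c hc τ] (i * z) ^ 3 -
        3 / 20 * (E.c₄ / 12) * ℘[periodPair c hc τ] (i * z) - E.c₆ / 216 / 10) := by
    rw [Finset.mul_sum]
    refine Finset.sum_congr rfl fun k hk => ?_
    rw [hU.nsmul_par, hU.xco_par (h.notMem hk), c₄, c₆]
    ring
  rw [e, Finset.sum_add_distrib, ← Finset.mul_sum, ← Finset.mul_sum] at hs
  linear_combination -hs / 2

include hU in
theorem Unif.vJ_eq {c' : ℂ} {hc' : c' ≠ 0} {τ' : ℍ}
    (h : IsExt (periodPair c hc τ) (periodPair c' hc' τ') N z) (hodd : N % 2 = 1)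
    (hN : N • hU.par z = 0) : vc₄ E (hU.par z) N ^ 3 - vc₆ E (hU.par z) N ^ 2 ≠ 0 ∧
      vJ E (hU.par z) N = jf τ' := by
  have h1 := hU.vc₄_eq h hodd hN
  have h2 := hU.vc₆_eq h hodd hN
  have h3 := crv_c₄_cube hc' τ'
  have h4 := crv_Δ_ne_zero hc' τ'
  rw [crv_Δ] at h3 h4
  rw [crv_c₄] at h3
  have h5 : vc₄ E (hU.par z) N ^ 3 - vc₆ E (hU.par z) N ^ 2 =
      1728 * ((periodPair c' hc' τ').g₂ ^ 3 - 27 * (periodPair c' hc' τ').g₃ ^ 2) := by
    rw [h1, h2]; ring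
  have h6 : vc₄ E (hU.par z) N ^ 3 - vc₆ E (hU.par z) N ^ 2 ≠ 0 := by
    rw [h5]; exact mul_ne_zero (by norm_num) h4
  refine ⟨h6, ?_⟩
  rw [vJ, div_eq_iff h6, h5, h1]
  linear_combination 1728 * h3

end Quot

section Index

variable (N : ℕ) [hN0 : NeZero N]

/-- the point `(a cτ + b c)/N` -/
def zz (c : ℂ) (τ : ℍ) (N : ℕ) (a b : ℤ) : ℂ := (a * (c * τ) + b * c) / N

theorem zz_mem_iff {a b : ℤ} : zz c τ N a b ∈ (periodPair c hc τ).lattice ↔
    (N : ℤ) ∣ a ∧ (N : ℤ) ∣ b := by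
  have hN : (N : ℂ) ≠ 0 := by exact_mod_cast hN0.out
  rw [mem_periodPair]
  constructor
  · rintro ⟨m, n, h⟩
    have : ((N * m : ℤ) : ℂ) * (c * τ) + ((N * n : ℤ) : ℂ) * c = a * (c * τ) + b * c := by
      rw [zz] at h
      field_simp at h
      push_cast
      linear_combination c * h
    obtain ⟨h1, h2⟩ := periodPair_unique hc τ this
    exact ⟨⟨m, h1.symm⟩, ⟨n, h2.symm⟩⟩
  · rintro ⟨⟨m, rfl⟩, ⟨n, rfl⟩⟩
    refine ⟨m, n, ?_⟩
    rw [zz]
    push_cast
    field_simp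

omit hN0 in
theorem zz_add (a b a' b' : ℤ) : zz c τ N (a + a') (b + b') = zz c τ N a b + zz c τ N a' b' := by
  simp only [zz]; push_cast; ring

omit hN0 in
theorem zz_sub (a b a' b' : ℤ) : zz c τ N (a - a') (b - b') = zz c τ N a b - zz c τ N a' b' := by
  simp only [zz]; push_cast; ring

omit hN0 in
theorem zz_mul (m a b : ℤ) : zz c τ N (m * a) (m * b) = m * zz c τ N a b := by
  simp only [zz]; push_cast; ring

/-- the points of order `N` attached to the indices -/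
def Unif.pt (i : Option (Fin N)) : E.toAffine.Point :=
  match i with
  | none => hU.par (zz c τ N 0 1)
  | some k => hU.par (zz c τ N 1 (k : ℕ))

theorem Unif.par_zz_eq_iff {a b a' b' : ℤ} : hU.par (zz c τ N a b) = hU.par (zz c τ N a' b') ↔
    (N : ℤ) ∣ a - a' ∧ (N : ℤ) ∣ b - b' := by
  rw [← sub_eq_zero, ← map_sub, ← zz_sub, hU.par_eq_zero_iff, zz_mem_iff]

omit hN0 in
theorem Unif.zsmul_par_zz (m a b : ℤ) : m • hU.par (zz c τ N a b) =
    hU.par (zz c τ N (m * a) (m * b)) := by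
  rw [zz_mul, ← map_zsmul, zsmul_eq_mul]

theorem Unif.nsmul_par_zz (a b : ℤ) : N • hU.par (zz c τ N a b) = 0 := by
  have hN : (N : ℂ) ≠ 0 := by exact_mod_cast hN0.out
  rw [← map_nsmul, hU.par_eq_zero_iff, nsmul_eq_mul]
  rw [mem_periodPair]
  exact ⟨a, b, by rw [zz]; field_simp⟩

theorem Unif.exists_zz {P : E.toAffine.Point} (hP : N • P = 0) :
    ∃ a b : ℤ, P = hU.par (zz c τ N a b) := by
  have hN : (N : ℂ) ≠ 0 := by exact_mod_cast hN0.out
  obtain ⟨z, rfl⟩ := hU.par_surjective P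
  rw [← map_nsmul, hU.par_eq_zero_iff, nsmul_eq_mul, mem_periodPair] at hP
  obtain ⟨a, b, h⟩ := hP
  refine ⟨a, b, ?_⟩
  rw [zz, h, mul_div_cancel_left₀ _ hN]

variable {N} [hp : Fact N.Prime]

theorem Unif.pt_ne_zero (i : Option (Fin N)) : hU.pt N i ≠ 0 := by
  have h1 : ¬ (N : ℤ) ∣ 1 := by
    have := hp.out.one_lt
    intro h
    exact absurd (Int.le_of_dvd one_pos h) (by exact_mod_cast this.not_ge)
  cases i with
  | none => rw [Unif.pt, Ne, hU.par_eq_zero_iff, zz_mem_iff]; exact fun h => h1 h.2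
  | some k => rw [Unif.pt, Ne, hU.par_eq_zero_iff, zz_mem_iff]; exact fun h => h1 h.1

omit hp in
theorem Unif.nsmul_pt (i : Option (Fin N)) : N • hU.pt N i = 0 := by
  cases i <;> exact hU.nsmul_par_zz N _ _

theorem Unif.exists_index {P : E.toAffine.Point} (hP : N • P = 0) (hP0 : P ≠ 0)
    (hodd : N % 2 = 1) : ∃ i : Option (Fin N), P ∈ AddSubgroup.zmultiples (hU.pt N i) ∧
      vc₄ E P N ^ 3 - vc₆ E P N ^ 2 ≠ 0 ∧ vJ E P N = jf (tauOf N τ i) := by
  have hN : (N : ℂ) ≠ 0 := by exact_mod_cast hN0.out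
  obtain ⟨a, b, rfl⟩ := hU.exists_zz N hP
  have hz : N * zz c τ N a b = a * (c * τ) + b * c := by rw [zz]; field_simp
  have hab : ¬ ((N : ℤ) ∣ a ∧ (N : ℤ) ∣ b) := by
    rwa [Ne, hU.par_eq_zero_iff, zz_mem_iff] at hP0
  by_cases ha : (N : ℤ) ∣ a
  · have hb : ¬ (N : ℤ) ∣ b := fun hb => hab ⟨ha, hb⟩
    refine ⟨none, ?_, hU.vJ_eq (isExt_none hc τ N hp.out hz ha hb) hodd hP⟩
    rw [AddSubgroup.mem_zmultiples_iff]
    refine ⟨b, ?_⟩
    rw [Unif.pt, hU.zsmul_par_zz, hU.par_zz_eq_iff]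
    constructor
    · simpa using ha
    · simp
  · obtain ⟨k, hk, hd⟩ := exists_mul_add_dvd hp.out ha (-b)
    refine ⟨some ⟨k, hk⟩, ?_, hU.vJ_eq (isExt_some hc τ N hp.out hz ha ⟨k, hk⟩ (by
      convert hd using 1; ring)) hodd hP⟩
    rw [AddSubgroup.mem_zmultiples_iff]
    refine ⟨a, ?_⟩
    rw [Unif.pt, hU.zsmul_par_zz, hU.par_zz_eq_iff]
    constructor
    · simp
    · convert hd using 1; push_cast; ring

theorem Unif.pt_injective {i k : Option (Fin N)}
    (h : hU.pt N i ∈ AddSubgroup.zmultiples (hU.pt N k)) : i = k := by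
  have h1 : ¬ (N : ℤ) ∣ 1 := by
    have := hp.out.one_lt
    intro h
    exact absurd (Int.le_of_dvd one_pos h) (by exact_mod_cast this.not_ge)
  obtain ⟨m, hm⟩ := AddSubgroup.mem_zmultiples_iff.1 h
  cases i with
  | none =>
    cases k with
    | none => rfl
    | some k =>
      rw [Unif.pt, Unif.pt, hU.zsmul_par_zz, hU.par_zz_eq_iff] at hm
      obtain ⟨h2, h3⟩ := hm
      exfalso
      apply h1
      have h4 : (N : ℤ) ∣ m := by simpa using h2
      have h5 := dvd_sub (h4.mul_right ((k : ℕ) : ℤ)) h3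
      simpa using h5
  | some j =>
    cases k with
    | none =>
      rw [Unif.pt, Unif.pt, hU.zsmul_par_zz, hU.par_zz_eq_iff] at hm
      obtain ⟨h2, h3⟩ := hm
      exfalso
      apply h1
      rw [mul_zero, zero_sub, dvd_neg] at h2
      exact h2
    | some k =>
      rw [Unif.pt, Unif.pt, hU.zsmul_par_zz, hU.par_zz_eq_iff] at hm
      obtain ⟨h2, h3⟩ := hm
      have h4 : (N : ℤ) ∣ (k : ℕ) - (j : ℕ) := by
        have := dvd_sub h3 (h2.mul_right ((k : ℕ) : ℤ))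
        have e : m * ((k : ℕ) : ℤ) - ((j : ℕ) : ℤ) - (m * 1 - 1) * ((k : ℕ) : ℤ) =
            (k : ℕ) - (j : ℕ) := by ring
        rwa [e] at this
      have h5 : (j : ℕ) = (k : ℕ) := by
        have e := (Nat.modEq_iff_dvd (n := N) (a := j) (b := k)).2 h4
        rwa [Nat.ModEq, Nat.mod_eq_of_lt j.2, Nat.mod_eq_of_lt k.2] at e
      rw [Fin.ext h5]

end Index

end Complex

end Fermat.Agent.Moduli
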