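import Fermat.Agent.Moduli.Unif
import Fermat.Agent.VVMF.JInj
import Fermat.Agent.J.Mat

/-!
# Eisenstein series of an over-lattice (analytic Vélu formulas)
-/

set_option autoImplicit false

noncomputable section

open Filter Topology PeriodPair

namespace Fermat.Agent.Moduli

section Sums

variable {L : PeriodPair}

theorem sumInvPow_four {x : ℂ} (hx : x ∉ L.lattice) :
    L.sumInvPow x 4 = ℘[L] x ^ 2 - L.g₂ / 12 := by
  have h1 := L.deriv_derivWeierstrassPExcept_self x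
  rw [L.derivWeierstrassPExcept_of_notMem x hx, (hasDerivAt_wp' hx).deriv] at h1
  linear_combination -h1/6

theorem sumInvPow_six {x : ℂ} (hx : x ∉ L.lattice) :
    L.sumInvPow x 6 = ℘[L] x ^ 3 - 3 / 20 * L.g₂ * ℘[L] x - L.g₃ / 10 := by
  have h1 := L.iteratedDeriv_derivWeierstrassPExcept_self x (n := 3)
  rw [L.derivWeierstrassPExcept_of_notMem x hx] at h1
  have hU : ∀ z ∉ L.lattice, ∀ᶠ w in 𝓝 z, w ∉ L.lattice := fun z hz =>
    (isOpen_compl_lattice L).mem_nhds hz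
  have e1 : ∀ z ∉ L.lattice, deriv ℘'[L] z = 6 * ℘[L] z ^ 2 - L.g₂ / 2 := fun z hz =>
    (hasDerivAt_wp' hz).deriv
  have e2 : ∀ z ∉ L.lattice, deriv (deriv ℘'[L]) z = 12 * ℘[L] z * ℘'[L] z := by
    intro z hz
    have : deriv ℘'[L] =ᶠ[𝓝 z] fun w => 6 * ℘[L] w ^ 2 - L.g₂ / 2 :=
      (hU z hz).mono e1
    rw [this.deriv_eq]
    have h : HasDerivAt (fun w => 6 * ℘[L] w ^ 2 - L.g₂ / 2) _ z :=
      (((hasDerivAt_wp hz).pow 2).const_mul 6).sub_const (L.g₂ / 2)
    rw [h.deriv]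
    ring
  have e3 : deriv (deriv (deriv ℘'[L])) x = 12 * ℘'[L] x * ℘'[L] x +
      12 * ℘[L] x * (6 * ℘[L] x ^ 2 - L.g₂ / 2) := by
    have : deriv (deriv ℘'[L]) =ᶠ[𝓝 x] fun w => 12 * ℘[L] w * ℘'[L] w :=
      (hU x hx).mono e2
    rw [this.deriv_eq]
    exact (((hasDerivAt_wp hx).const_mul 12).mul (hasDerivAt_wp' hx)).deriv
  have e4 : iteratedDeriv 3 ℘'[L] = deriv (deriv (deriv ℘'[L])) := by
    rw [iteratedDeriv_succ, iteratedDeriv_succ, iteratedDeriv_one]
  rw [e4, e3] at h1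
  have h2 := L.derivWeierstrassP_sq x hx
  simp only [Nat.factorial, Nat.succ_eq_add_one] at h1
  push_cast at h1
  linear_combination -h1/120 + h2 / 10

end Sums

section Union

variable {L L' : PeriodPair} {N : ℕ} {z : ℂ}

/-- `L' = L + ℤ z` with `z` of exact order `N` modulo `L`. -/
structure IsExt (L L' : PeriodPair) (N : ℕ) (z : ℂ) : Prop where
  pos : 0 < N
  mem : ∀ w, w ∈ L'.lattice ↔ ∃ i < N, w + i * z ∈ L.lattice
  order : ∀ i < N, (i : ℂ) * z ∈ L.lattice → i = 0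

theorem IsExt.inj (h : IsExt L L' N z) {i k : ℕ} (hi : i < N) (hk : k < N)
    (hik : (i : ℂ) * z - k * z ∈ L.lattice) : i = k := by
  rcases le_total k i with hle | hle
  · have : ((i - k : ℕ) : ℂ) * z ∈ L.lattice := by
      rw [Nat.cast_sub hle]; convert hik using 1; ring
    have := h.order _ (by omega) this
    omega
  · have : ((k - i : ℕ) : ℂ) * z ∈ L.lattice := by
      rw [Nat.cast_sub hle]
      have h2 := L.lattice.neg_mem hik
      convert h2 using 1; ring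
    have := h.order _ (by omega) this
    omega

def IsExt.toFun (h : IsExt L L' N z) (p : Fin N × L.lattice) : L'.lattice :=
  ⟨(p.2 : ℂ) - (p.1 : ℕ) * z, (h.mem _).2 ⟨p.1, p.1.2, by simp⟩⟩

theorem IsExt.bijective (h : IsExt L L' N z) : Function.Bijective h.toFun := by
  constructor
  · rintro ⟨i, l⟩ ⟨k, m⟩ hik
    have h1 : (l : ℂ) - (i : ℕ) * z = m - (k : ℕ) * z := congrArg Subtype.val hik
    have h2 : (i : ℕ) = (k : ℕ) := h.inj i.2 k.2 (by
      have : ((i : ℕ) : ℂ) * z - (k : ℕ) * z = l - m := by linear_combination -h1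
      rw [this]
      exact L.lattice.sub_mem l.2 m.2)
    have h3 : (l : ℂ) = m := by
      rw [h2] at h1
      linear_combination h1
    exact Prod.ext (Fin.ext h2) (Subtype.ext h3)
  · rintro ⟨w, hw⟩
    obtain ⟨i, hi, hl⟩ := (h.mem w).1 hw
    exact ⟨⟨⟨i, hi⟩, ⟨_, hl⟩⟩, Subtype.ext (by simp [IsExt.toFun])⟩

theorem IsExt.G_eq (h : IsExt L L' N z) {n : ℕ} (hn : 2 < n) :
    L'.G n = ∑ i ∈ Finset.range N, L.sumInvPow (i * z) n := by
  let e := Equiv.ofBijective _ h.bijective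
  have hs : Summable fun w : L'.lattice => ((w : ℂ) ^ n)⁻¹ := by
    have := (L'.hasSum_sumInvPow 0 hn).summable
    simpa using this
  rw [PeriodPair.G, ← e.tsum_eq]
  have hs' : Summable fun p : Fin N × L.lattice => (((e p : L'.lattice) : ℂ) ^ n)⁻¹ :=
    e.summable_iff.2 hs
  rw [hs'.tsum_prod, tsum_fintype, Finset.sum_range]
  rfl

theorem IsExt.notMem (h : IsExt L L' N z) {i : ℕ} (hi : i ∈ Finset.Ico 1 N) :
    (i : ℂ) * z ∉ L.lattice := fun hm => by
  rw [Finset.mem_Ico] at hi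
  have := h.order i hi.2 hm
  omega

theorem IsExt.g₂_eq (h : IsExt L L' N z) : L'.g₂ = L.g₂ +
    60 * ∑ i ∈ Finset.Ico 1 N, (℘[L] (i * z) ^ 2 - L.g₂ / 12) := by
  rw [PeriodPair.g₂, h.G_eq (by norm_num), Finset.range_eq_Ico,
    Finset.sum_eq_sum_Ico_succ_bot h.pos, mul_add]
  congr 1
  · simp [PeriodPair.g₂]
  · congr 1
    exact Finset.sum_congr rfl fun i hi => sumInvPow_four (h.notMem hi)

theorem IsExt.g₃_eq (h : IsExt L L' N z) : L'.g₃ = L.g₃ +
    140 * ∑ i ∈ Finset.Ico 1 N, (℘[L] (i * z) ^ 3 - 3 / 20 * L.g₂ * ℘[L] (i * z) - L.g₃ / 10) := by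
  rw [PeriodPair.g₃, h.G_eq (by norm_num), Finset.range_eq_Ico,
    Finset.sum_eq_sum_Ico_succ_bot h.pos, mul_add]
  congr 1
  · simp [PeriodPair.g₃]
  · congr 1
    exact Finset.sum_congr rfl fun i hi => sumInvPow_six (h.notMem hi)

end Union

section Explicit

open UpperHalfPlane Fermat.Agent.VVMF FermatJ

variable {c : ℂ} (hc : c ≠ 0) (τ : ℍ) (N : ℕ) [NeZero N]

theorem mem_periodPair {w : ℂ} : w ∈ (periodPair c hc τ).lattice ↔
    ∃ m n : ℤ, m * (c * τ) + n * c = w := by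
  rw [PeriodPair.mem_lattice]; rfl

include hc in
theorem periodPair_unique {a b : ℤ} {a' b' : ℤ}
    (h : (a : ℂ) * (c * τ) + b * c = a' * (c * τ) + b' * c) : a = a' ∧ b = b' := by
  have h1 : (((a - a' : ℤ) : ℂ)) * τ + ((b - b' : ℤ) : ℂ) = 0 := by
    refine mul_left_cancel₀ hc ?_
    push_cast
    linear_combination h
  have him := congrArg Complex.im h1
  have him2 : (((a - a' : ℤ) : ℂ)).re * (τ : ℂ).im = 0 := by
    simpa using him
  have hx : a - a' = 0 := by
    rcases mul_eq_zero.1 him2 with h | h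
    · simpa [sub_eq_zero] using (by exact_mod_cast h : ((a - a' : ℤ) : ℝ) = 0)
    · exact absurd h τ.im_ne_zero
  rw [hx] at h1
  have hy : b - b' = 0 := by
    have : ((b - b' : ℤ) : ℂ) = 0 := by simpa using h1
    exact_mod_cast this
  constructor <;> omega

theorem coe_aff (a : ℕ) (b : ℤ) (d : ℕ) [NeZero a] [NeZero d] (τ : ℍ) :
    ((aff a b d τ : ℍ) : ℂ) = (a * τ + b) / d := rfl

/-- the `N + 1` points of the upper half plane attached to the sublattices -/
def tauOf (N : ℕ) [NeZero N] (τ : ℍ) (i : Option (Fin N)) : ℍ :=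
  match i with
  | none => aff N 0 1 τ
  | some k => aff 1 (k : ℕ) N τ

theorem exists_mul_add_dvd {N : ℕ} (hN : N.Prime) {b : ℤ} (hb : ¬ (N : ℤ) ∣ b) (n : ℤ) :
    ∃ i < N, (N : ℤ) ∣ n + i * b := by
  have := Fact.mk hN
  have hb0 : (b : ZMod N) ≠ 0 := by rwa [Ne, ZMod.intCast_zmod_eq_zero_iff_dvd]
  refine ⟨(-(n : ZMod N) / b).val, ZMod.val_lt _, ?_⟩
  rw [← ZMod.intCast_zmod_eq_zero_iff_dvd]
  push_cast
  rw [ZMod.natCast_val, ZMod.cast_id]
  field_simp
  ring

theorem eq_zero_of_dvd_mul {N : ℕ} (hN : N.Prime) {b : ℤ} (hb : ¬ (N : ℤ) ∣ b) {i : ℕ} (hi : i < N)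
    (h : (N : ℤ) ∣ i * b) : i = 0 := by
  rcases (Nat.prime_iff_prime_int.1 hN).dvd_or_dvd h with h | h
  · exact Nat.eq_zero_of_dvd_of_lt (by exact_mod_cast h) hi
  · exact absurd h hb

theorem isExt_none (hN : N.Prime) {z : ℂ} {a b : ℤ} (hz : N * z = a * (c * τ) + b * c)
    (ha : (N : ℤ) ∣ a) (hb : ¬ (N : ℤ) ∣ b) :
    IsExt (periodPair c hc τ) (periodPair (c / N) (div_ne_zero hc (by exact_mod_cast NeZero.ne N))
      (tauOf N τ none)) N z := by
  have hN0 : (N : ℂ) ≠ 0 := by exact_mod_cast NeZero.ne N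
  have hz' : z = (a * (c * τ) + b * c) / N := by rw [eq_div_iff hN0, ← hz]; ring
  obtain ⟨a, rfl⟩ := ha
  refine ⟨hN.pos, fun w => ?_, fun i hi h => ?_⟩
  · rw [mem_periodPair]
    constructor
    · rintro ⟨m, n, rfl⟩
      obtain ⟨i, hi, d, hd⟩ := exists_mul_add_dvd hN hb n
      refine ⟨i, hi, (mem_periodPair hc τ).2 ⟨m + i * a, d, ?_⟩⟩
      have hd' : ((n + i * b : ℤ) : ℂ) = N * d := by rw [hd]; push_cast; ring
      rw [hz', tauOf, coe_aff]
      push_cast at hd' ⊢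
      field_simp
      linear_combination -hd'
    · rintro ⟨i, -, h⟩
      obtain ⟨m, n, h⟩ := (mem_periodPair hc τ).1 h
      refine ⟨m - i * a, N * n - i * b, ?_⟩
      rw [tauOf, coe_aff]
      have : w = m * (c * τ) + n * c - i * z := by rw [h]; ring
      rw [this, hz']
      push_cast
      field_simp
      ring
  · obtain ⟨m, n, h⟩ := (mem_periodPair hc τ).1 h
    have : ((N * m : ℤ) : ℂ) * (c * τ) + ((N * n : ℤ) : ℂ) * c =
        ((i * (N * a) : ℤ) : ℂ) * (c * τ) + ((i * b : ℤ) : ℂ) * c := by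
      push_cast
      rw [hz'] at h
      field_simp at h
      push_cast at h
      linear_combination c * h
    have h2 := (periodPair_unique hc τ this).2
    exact eq_zero_of_dvd_mul hN hb hi ⟨n, h2.symm⟩

theorem isExt_some (hN : N.Prime) {z : ℂ} {a b : ℤ} (hz : N * z = a * (c * τ) + b * c)
    (ha : ¬ (N : ℤ) ∣ a) (k : Fin N) (hb : (N : ℤ) ∣ (k : ℕ) * a - b) :
    IsExt (periodPair c hc τ) (periodPair c hc (tauOf N τ (some k))) N z := by
  have hN0 : (N : ℂ) ≠ 0 := by exact_mod_cast NeZero.ne N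
  have hz' : z = (a * (c * τ) + b * c) / N := by rw [eq_div_iff hN0, ← hz]; ring
  obtain ⟨e, he⟩ := hb
  have he' : (((k : ℕ) * a - b : ℤ) : ℂ) = N * e := by rw [he]; push_cast; ring
  push_cast at he'
  refine ⟨hN.pos, fun w => ?_, fun i hi h => ?_⟩
  · rw [mem_periodPair]
    constructor
    · rintro ⟨m, n, rfl⟩
      obtain ⟨i, hi, d, hd⟩ := exists_mul_add_dvd hN ha m
      refine ⟨i, hi, (mem_periodPair hc τ).2 ⟨d, n + d * (k : ℕ) - i * e, ?_⟩⟩
      have hd' : ((m + i * a : ℤ) : ℂ) = N * d := by rw [hd]; push_cast; ring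
      rw [hz', tauOf, coe_aff]
      push_cast at hd' ⊢
      field_simp
      linear_combination -(τ + (k : ℕ)) * hd' + i * he'
    · rintro ⟨i, -, h⟩
      obtain ⟨m, n, h⟩ := (mem_periodPair hc τ).1 h
      refine ⟨N * m - i * a, n - m * (k : ℕ) + i * e, ?_⟩
      rw [tauOf, coe_aff]
      have : w = m * (c * τ) + n * c - i * z := by rw [h]; ring
      rw [this, hz']
      push_cast
      field_simp
      linear_combination -i * he'
  · obtain ⟨m, n, h⟩ := (mem_periodPair hc τ).1 h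
    have : ((N * m : ℤ) : ℂ) * (c * τ) + ((N * n : ℤ) : ℂ) * c =
        ((i * a : ℤ) : ℂ) * (c * τ) + ((i * b : ℤ) : ℂ) * c := by
      push_cast
      rw [hz'] at h
      field_simp at h
      linear_combination c * h
    have h2 := (periodPair_unique hc τ this).1
    exact eq_zero_of_dvd_mul hN ha hi ⟨m, h2.symm⟩

end Explicit

end Fermat.Agent.Moduli
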