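import Fermat.Agent.Moduli.Curve
import Fermat.Agent.EllTorsion.Card
import Fermat.Agent.Mazur.Moduli.VeluDef

/-!
# The cyclic quotients of an elliptic curve over `Q̄` and the roots of `Φ_N(X, j)`
-/

set_option autoImplicit false

noncomputable section

open WeierstrassCurve WeierstrassCurve.Affine Polynomial Fermat.Agent.S28 FermatJ
open scoped WeierstrassCurve.Affine

namespace Fermat.Agent.Moduli

section UHP

open UpperHalfPlane

variable {N : ℕ} [hN0 : NeZero N]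

theorem jf_aff_add (k : ℕ) (τ : ℍ) : jf (aff 1 k 1 τ) = jf τ := by
  rw [← jf_smul (ModularGroup.T ^ (k : ℤ)) τ]
  congr 1
  ext
  rw [modular_T_zpow_smul, coe_aff]
  simp
  ring

theorem exists_dual (τ : ℍ) (i : Option (Fin N)) :
    ∃ k : Option (Fin N), jf (tauOf N (tauOf N τ i) k) = jf τ := by
  have hN : (N : ℂ) ≠ 0 := by exact_mod_cast hN0.out
  cases i with
  | none =>
    refine ⟨some ⟨0, Nat.pos_of_ne_zero hN0.out⟩, ?_⟩
    congr 1
    ext
    rw [tauOf, tauOf, coe_aff, coe_aff]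
    push_cast
    field_simp
    ring
  | some k =>
    refine ⟨none, ?_⟩
    rw [← jf_aff_add (k : ℕ) τ]
    congr 1
    ext
    rw [tauOf, tauOf, coe_aff, coe_aff, coe_aff]
    push_cast
    field_simp
    ring

theorem exists_tau_one (τ : ℍ) (i : Option (Fin N)) :
    ∃ τ₁ : ℍ, jf τ₁ = jf τ ∧ jf (aff N 0 1 τ₁) = jf (tauOf N τ i) := by
  have hN : (N : ℂ) ≠ 0 := by exact_mod_cast hN0.out
  cases i with
  | none => exact ⟨τ, rfl, rfl⟩
  | some k =>
    refine ⟨ModularGroup.S • aff N 0 1 (tauOf N τ (some k)), ?_, ?_⟩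
    · rw [jf_smul, ← jf_aff_add (k : ℕ) τ]
      congr 1
      ext
      rw [tauOf, coe_aff, coe_aff, coe_aff]
      push_cast
      field_simp
      ring
    · rw [← jf_smul ModularGroup.S (tauOf N τ (some k))]
      congr 1
      ext
      rw [coe_aff, modular_S_smul, modular_S_smul]
      have h0 := (tauOf N τ (some k)).ne_zero
      simp only [coe_aff]
      push_cast
      field_simp
      ring

theorem phi_root {p : ℕ} [Fact p.Prime] {Φ : ℤ[X][X]} (h : ModPolySpec p Φ) (τ : ℍ)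
    (i : Option (Fin p)) : (PhiR Φ (jf (tauOf p τ i))).eval (jf τ) = 0 := by
  obtain ⟨k, hk⟩ := exists_dual τ i
  rw [phi_tau h, eval_prod]
  refine Finset.prod_eq_zero (Finset.mem_univ k) ?_
  rw [eval_sub, eval_X, eval_C, hk, sub_self]

end UHP

section Map

variable {K L : Type*} [Field K] [Field L] [DecidableEq K] [DecidableEq L] [Algebra ℚ K]
  [Algebra ℚ L] (ι : K →ₐ[ℚ] L) (W : WeierstrassCurve ℚ)

theorem xco_map (P : (W⁄K).Point) : xco (E := (W⁄L)) (Point.map ι P) =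
    ι (xco (E := (W⁄K)) P) := by
  rcases P with _ | ⟨x, y, h⟩
  · exact (map_zero ι).symm
  · rfl

omit [DecidableEq K] [DecidableEq L] in
theorem curve_map : (W⁄L) = (W⁄K).map (ι : K →+* L) := by
  change W.map (algebraMap ℚ L) = (W.map (algebraMap ℚ K)).map (ι : K →+* L)
  rw [WeierstrassCurve.map_map]
  congr 1
  exact Subsingleton.elim _ _

omit [DecidableEq K] [DecidableEq L] in
theorem b₂_map : WeierstrassCurve.b₂ (W⁄L) = ι (WeierstrassCurve.b₂ (W⁄K)) := by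
  rw [curve_map ι]; exact WeierstrassCurve.map_b₂ _ _
omit [DecidableEq K] [DecidableEq L] in
theorem b₄_map : WeierstrassCurve.b₄ (W⁄L) = ι (WeierstrassCurve.b₄ (W⁄K)) := by
  rw [curve_map ι]; exact WeierstrassCurve.map_b₄ _ _
omit [DecidableEq K] [DecidableEq L] in
theorem b₆_map : WeierstrassCurve.b₆ (W⁄L) = ι (WeierstrassCurve.b₆ (W⁄K)) := by
  rw [curve_map ι]; exact WeierstrassCurve.map_b₆ _ _
omit [DecidableEq K] [DecidableEq L] in
theorem c₄_map : WeierstrassCurve.c₄ (W⁄L) = ι (WeierstrassCurve.c₄ (W⁄K)) := by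
  rw [curve_map ι]; exact WeierstrassCurve.map_c₄ _ _
omit [DecidableEq K] [DecidableEq L] in
theorem c₆_map : WeierstrassCurve.c₆ (W⁄L) = ι (WeierstrassCurve.c₆ (W⁄K)) := by
  rw [curve_map ι]; exact WeierstrassCurve.map_c₆ _ _
omit [DecidableEq K] [DecidableEq L] in
theorem Δ_map : WeierstrassCurve.Δ (W⁄L) = ι (WeierstrassCurve.Δ (W⁄K)) := by
  rw [curve_map ι]; exact WeierstrassCurve.map_Δ _ _

theorem vT_map (P : (W⁄K).Point) (N : ℕ) : vT (W⁄L) (Point.map ι P) N =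
    ι (vT (W⁄K) P N) := by
  rw [vT, vT, map_sum]
  refine Finset.sum_congr rfl fun k _ => ?_
  rw [← map_nsmul, xco_map, b₂_map ι, b₄_map ι]
  simp only [map_add, map_mul, map_pow, map_ofNat]

theorem vW_map (P : (W⁄K).Point) (N : ℕ) : vW (W⁄L) (Point.map ι P) N =
    ι (vW (W⁄K) P N) := by
  rw [vW, vW, map_sum]
  refine Finset.sum_congr rfl fun k _ => ?_
  rw [← map_nsmul, xco_map, b₂_map ι, b₄_map ι, b₆_map ι]
  simp only [map_add, map_mul, map_pow, map_ofNat]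

theorem vc₄_map (P : (W⁄K).Point) (N : ℕ) : vc₄ (W⁄L) (Point.map ι P) N =
    ι (vc₄ (W⁄K) P N) := by
  rw [vc₄, vc₄, vT_map, c₄_map ι]
  simp only [map_add, map_mul, map_ofNat]

theorem vc₆_map (P : (W⁄K).Point) (N : ℕ) : vc₆ (W⁄L) (Point.map ι P) N =
    ι (vc₆ (W⁄K) P N) := by
  rw [vc₆, vc₆, vT_map, vW_map, c₆_map ι, b₂_map ι]
  simp only [map_add, map_mul, map_ofNat]

theorem vJ_map (P : (W⁄K).Point) (N : ℕ) : vJ (W⁄L) (Point.map ι P) N =
    ι (vJ (W⁄K) P N) := by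
  rw [vJ, vJ, vc₄_map, vc₆_map]
  simp only [map_sub, map_mul, map_pow, map_ofNat, map_div₀]

/-- torsion points over an algebraically closed extension -/
theorem exists_map_eq [IsAlgClosed K] [IsAlgClosed L] (hΔ : W.Δ ≠ 0) {n : ℕ} (hn : n ≠ 0)
    {P : (W⁄L).Point} (hP : n • P = 0) : ∃ Q : (W⁄K).Point, n • Q = 0 ∧ Point.map ι Q = P := by
  have hK : WeierstrassCurve.IsElliptic (W⁄K) := ⟨by
    change IsUnit (W.map (algebraMap ℚ K)).Δ
    rw [WeierstrassCurve.map_Δ]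
    exact (isUnit_iff_ne_zero.2 hΔ).map _⟩
  have hL : WeierstrassCurve.IsElliptic (W⁄L) := ⟨by
    change IsUnit (W.map (algebraMap ℚ L)).Δ
    rw [WeierstrassCurve.map_Δ]
    exact (isUnit_iff_ne_zero.2 hΔ).map _⟩
  have hcK : CharZero K := charZero_of_injective_algebraMap (algebraMap ℚ K).injective
  have hcL : CharZero L := charZero_of_injective_algebraMap (algebraMap ℚ L).injective
  have h1 := EllTorsion.card_nsmul_eq_zero (W := (W⁄K)) (n := n) (by exact_mod_cast hn)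
  have h2 := EllTorsion.card_nsmul_eq_zero (W := (W⁄L)) (n := n) (by exact_mod_cast hn)
  let f : {P : (W⁄K).Point // n • P = 0} → {P : (W⁄L).Point // n • P = 0} := fun P =>
    ⟨Point.map ι P.1, by rw [← map_nsmul, P.2, map_zero]⟩
  have hf : Function.Injective f := fun P Q h =>
    Subtype.ext (Point.map_injective ι (congrArg Subtype.val h))
  have hfin : Finite {P : (W⁄L).Point // n • P = 0} :=
    Nat.finite_of_card_ne_zero (by rw [h2]; positivity)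
  have hb : Function.Bijective f := by
    rw [Nat.bijective_iff_injective_and_card]
    exact ⟨hf, by rw [h1, h2]⟩
  obtain ⟨Q, hQ⟩ := hb.2 ⟨P, hP⟩
  exact ⟨Q.1, Q.2, congrArg Subtype.val hQ⟩

end Map

section Main

variable {K : Type*} [Field K] [DecidableEq K] [Algebra ℚ K] [IsAlgClosed K]
  (ι : K →ₐ[ℚ] ℂ) (W : WeierstrassCurve ℚ)

open UpperHalfPlane in
/-- **Quotients of an elliptic curve by its subgroups of order `N`, and the roots of the modular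
polynomial.** -/
theorem exists_quotients (hΔ : W.Δ ≠ 0) {N : ℕ} [hp : Fact N.Prime] (hodd : N % 2 = 1) :
    ∃ (τ : ℍ) (pt : Option (Fin N) → (W⁄K).Point),
      (∀ i, pt i ≠ 0 ∧ N • pt i = 0) ∧
      (ι (WeierstrassCurve.c₄ (W⁄K)) ^ 3 = jf τ * ι (WeierstrassCurve.Δ (W⁄K))) ∧
      (∀ P : (W⁄K).Point, P ≠ 0 → N • P = 0 → ∃ i, P ∈ AddSubgroup.zmultiples (pt i) ∧
        vc₄ (W⁄K) P N ^ 3 - vc₆ (W⁄K) P N ^ 2 ≠ 0 ∧ ι (vJ (W⁄K) P N) = jf (tauOf N τ i)) ∧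
      (∀ i k, pt i ∈ AddSubgroup.zmultiples (pt k) → i = k) := by
  classical
  have hN : N ≠ 0 := hp.out.ne_zero
  have hΔ' : WeierstrassCurve.Δ (W⁄ℂ) ≠ 0 := by
    change (W.map (algebraMap ℚ ℂ)).Δ ≠ 0
    rw [WeierstrassCurve.map_Δ]
    exact (_root_.map_ne_zero _).2 hΔ
  obtain ⟨c, hc, τ, hU⟩ := exists_unif (W⁄ℂ) hΔ'
  choose pt hpt0 hpt using fun i : Option (Fin N) => exists_map_eq ι W hΔ hN (hU.nsmul_pt i)
  refine ⟨τ, pt, fun i => ⟨?_, hpt0 i⟩, ?_, ?_, ?_⟩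
  · intro h
    apply hU.pt_ne_zero (N := N) i
    rw [← hpt i, h, map_zero]
  · have := hU.c₄_cube
    rwa [c₄_map ι, Δ_map ι] at this
  · intro P hP0 hP
    have h1 : N • Point.map ι P = 0 := by rw [← map_nsmul, hP, map_zero]
    have h2 : Point.map ι P ≠ 0 := by
      rwa [Ne, map_eq_zero_iff _ (Point.map_injective ι)]
    obtain ⟨i, hi, hd, hj⟩ := hU.exists_index h1 h2 hodd
    refine ⟨i, ?_, ?_, ?_⟩
    · rw [AddSubgroup.mem_zmultiples_iff] at hi ⊢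
      obtain ⟨m, hm⟩ := hi
      refine ⟨m, Point.map_injective ι ?_⟩
      rw [map_zsmul, hpt, hm]
    · intro h
      apply hd
      rw [vc₄_map, vc₆_map, ← map_pow, ← map_pow, ← map_sub, h, map_zero]
    · rw [← vJ_map, hj]
  · intro i k h
    apply hU.pt_injective
    rw [AddSubgroup.mem_zmultiples_iff] at h ⊢
    obtain ⟨m, hm⟩ := h
    exact ⟨m, by rw [← hpt, ← hpt, ← map_zsmul, hm]⟩

/-- **Quotients of an elliptic curve by its subgroups of order `N`, and the roots of the modular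
polynomial** (algebraic form). -/
theorem exists_quotients_alg (hΔ : W.Δ ≠ 0) {N : ℕ} [hp : Fact N.Prime] (hodd : N % 2 = 1)
    {Φ : ℤ[X][X]} (hΦ : ModPolySpec N Φ) {j₀ : K}
    (hj : WeierstrassCurve.c₄ (W⁄K) ^ 3 = j₀ * WeierstrassCurve.Δ (W⁄K)) :
    ∃ pt : Option (Fin N) → (W⁄K).Point,
      (∀ i, pt i ≠ 0 ∧ N • pt i = 0) ∧
      PhiR Φ j₀ = ∏ i, (X - C (vJ (W⁄K) (pt i) N)) ∧
      (∀ P : (W⁄K).Point, P ≠ 0 → N • P = 0 → ∃ i, P ∈ AddSubgroup.zmultiples (pt i) ∧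
        vc₄ (W⁄K) P N ^ 3 - vc₆ (W⁄K) P N ^ 2 ≠ 0 ∧ vJ (W⁄K) P N = vJ (W⁄K) (pt i) N) ∧
      (∀ i k, pt i ∈ AddSubgroup.zmultiples (pt k) → i = k) ∧
      (∀ i, (PhiR Φ (vJ (W⁄K) (pt i) N)).eval j₀ = 0) ∧
      (∀ i, ∃ τ₁ : UpperHalfPlane, jf τ₁ = ι j₀ ∧ jf (aff N 0 1 τ₁) = ι (vJ (W⁄K) (pt i) N)) := by
  obtain ⟨τ, pt, h1, h2, h3, h4⟩ := exists_quotients ι W hΔ hodd
  have hΔ' : WeierstrassCurve.Δ (W⁄K) ≠ 0 := by
    change (W.map (algebraMap ℚ K)).Δ ≠ 0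
    rw [WeierstrassCurve.map_Δ]
    exact (_root_.map_ne_zero _).2 hΔ
  have hjτ : jf τ = ι j₀ := by
    have h5 := congrArg ι hj
    rw [map_pow, map_mul, h2] at h5
    exact mul_right_cancel₀ ((_root_.map_ne_zero ι).2 hΔ') h5
  have h5 : ∀ i, ι (vJ (W⁄K) (pt i) N) = jf (tauOf N τ i) := by
    intro i
    obtain ⟨k, hk, -, hj⟩ := h3 (pt i) (h1 i).1 (h1 i).2
    obtain rfl := h4 i k hk
    exact hj
  refine ⟨pt, h1, ?_, ?_, h4, ?_, ?_⟩
  · apply Polynomial.map_injective (ι : K →+* ℂ) (ι : K →+* ℂ).injective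
    rw [PhiR_map, Polynomial.map_prod]
    have : (ι : K →+* ℂ) j₀ = jf τ := hjτ.symm
    rw [this, phi_tau hΦ]
    refine Finset.prod_congr rfl fun i _ => ?_
    rw [Polynomial.map_sub, Polynomial.map_X, Polynomial.map_C, ← h5 i]
    rfl
  · intro P hP0 hP
    obtain ⟨i, hi, hd, hj⟩ := h3 P hP0 hP
    exact ⟨i, hi, hd, (ι : K →+* ℂ).injective (hj.trans (h5 i).symm)⟩
  · intro i
    apply (ι : K →+* ℂ).injective
    rw [map_phi_eval, map_zero]
    have e1 : (ι : K →+* ℂ) j₀ = jf τ := hjτ.symm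
    have e2 : (ι : K →+* ℂ) (vJ (W⁄K) (pt i) N) = jf (tauOf N τ i) := h5 i
    rw [e1, e2]
    exact phi_root hΦ τ i
  · intro i
    obtain ⟨τ₁, t1, t2⟩ := exists_tau_one τ i
    exact ⟨τ₁, t1.trans hjτ, t2.trans (h5 i).symm⟩

end Main

section Velu

open Fermat.Agent.Mazur.Moduli

variable {K : Type*} [Field K] [DecidableEq K]

omit [DecidableEq K] in
theorem xco_eq_px {E : WeierstrassCurve K} (P : E.toAffine.Point) : xco P = px P := by
  rcases P with _ | ⟨x, y, h⟩ <;> rfl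

theorem vT_eq (E : WeierstrassCurve K) (P : E.toAffine.Point) (N : ℕ) :
    vT E P N = veluT E P N := by
  simp only [vT, veluT, vt, xco_eq_px]

theorem vW_eq (E : WeierstrassCurve K) (P : E.toAffine.Point) (N : ℕ) :
    vW E P N = veluW E P N := by
  simp only [vW, veluW, vw, xco_eq_px]

theorem vc₄_eq_velu (E : WeierstrassCurve K) (P : E.toAffine.Point) (N : ℕ) :
    vc₄ E P N = (velu E P N).c₄ := by rw [velu_c₄, vc₄, vT_eq]

theorem vc₆_eq_velu (E : WeierstrassCurve K) (P : E.toAffine.Point) (N : ℕ) :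
    vc₆ E P N = (velu E P N).c₆ := by rw [velu_c₆, vc₆, vT_eq, vW_eq]

theorem disc_eq_velu (E : WeierstrassCurve K) (P : E.toAffine.Point) (N : ℕ) :
    vc₄ E P N ^ 3 - vc₆ E P N ^ 2 = 1728 * (velu E P N).Δ := by
  rw [vc₄_eq_velu, vc₆_eq_velu, WeierstrassCurve.c_relation]

theorem vJ_eq_velu (E : WeierstrassCurve K) (P : E.toAffine.Point) (N : ℕ) (h : (1728 : K) ≠ 0) :
    vJ E P N = veluJ E P N := by
  rw [vJ, disc_eq_velu, vc₄_eq_velu, veluJ, jq, mul_div_mul_left _ _ h]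

variable [Algebra ℚ K] [IsAlgClosed K] (ι : K →ₐ[ℚ] ℂ) (W : WeierstrassCurve ℚ)

/-- **Quotients of an elliptic curve by its subgroups of order `N`, and the roots of the modular
polynomial**, with Vélu's curves. -/
theorem exists_quotients_velu (hΔ : W.Δ ≠ 0) {N : ℕ} [hp : Fact N.Prime] (hodd : N % 2 = 1)
    {Φ : ℤ[X][X]} (hΦ : ModPolySpec N Φ) :
    ∃ pt : Option (Fin N) → (W⁄K).Point,
      (∀ i, pt i ≠ 0 ∧ N • pt i = 0) ∧
      PhiR Φ (jq (W⁄K)) = ∏ i, (X - C (veluJ (W⁄K) (pt i) N)) ∧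
      (∀ P : (W⁄K).Point, P ≠ 0 → N • P = 0 → ∃ i, P ∈ AddSubgroup.zmultiples (pt i) ∧
        WeierstrassCurve.Δ (velu (W⁄K) P N) ≠ 0 ∧ veluJ (W⁄K) P N = veluJ (W⁄K) (pt i) N) ∧
      (∀ i k, pt i ∈ AddSubgroup.zmultiples (pt k) → i = k) ∧
      (∀ i, (PhiR Φ (veluJ (W⁄K) (pt i) N)).eval (jq (W⁄K)) = 0) ∧
      (∀ i, ∃ τ₁ : UpperHalfPlane, jf τ₁ = ι (jq (W⁄K)) ∧
        jf (aff N 0 1 τ₁) = ι (veluJ (W⁄K) (pt i) N)) := by
  have hcK : CharZero K := charZero_of_injective_algebraMap (algebraMap ℚ K).injective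
  have h1728 : (1728 : K) ≠ 0 := by norm_num
  have hΔ' : WeierstrassCurve.Δ (W⁄K) ≠ 0 := by
    change (W.map (algebraMap ℚ K)).Δ ≠ 0
    rw [WeierstrassCurve.map_Δ]
    exact (_root_.map_ne_zero _).2 hΔ
  have hj : WeierstrassCurve.c₄ (W⁄K) ^ 3 = jq (W⁄K) * WeierstrassCurve.Δ (W⁄K) := by
    rw [jq, div_mul_cancel₀ _ hΔ']
  obtain ⟨pt, h1, h2, h3, h4, h5, h6⟩ := exists_quotients_alg ι W hΔ hodd hΦ hj
  simp only [vJ_eq_velu _ _ _ h1728] at h2 h3 h5 h6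
  refine ⟨pt, h1, h2, ?_, h4, h5, h6⟩
  intro P hP0 hP
  obtain ⟨i, hi, hd, hj⟩ := h3 P hP0 hP
  refine ⟨i, hi, ?_, hj⟩
  rw [disc_eq_velu] at hd
  exact right_ne_zero_of_mul hd

end Velu

end Fermat.Agent.Moduli
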