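import Fermat.Agent.Moduli.LatVelu
import Fermat.Agent.S28.ModPolySpecProof
import Fermat.Agent.J.Gamma0Field

/-!
# The modular equation on the upper half plane, and `j` of a lattice
-/

set_option autoImplicit false

noncomputable section

open Filter Topology UpperHalfPlane Polynomial FermatJ Fermat.Agent.S28 Fermat.Agent.VVMF
  ModularForm

namespace Fermat.Agent.Moduli

section HasExpRing

variable {ι : Type*} (t : ι → ℂ)

/-- the ring of functions with a Laurent expansion (as pairs) -/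
def expRing : Subring ((ι → ℂ) × LaurentSeries ℂ) where
  carrier := {x | HasExp t x.1 x.2}
  mul_mem' := fun hx hy => HasExp.mul hx hy
  one_mem' := HasExp.one t
  add_mem' := fun hx hy => HasExp.add hx hy
  zero_mem' := HasExp.zero t
  neg_mem' := fun hx => HasExp.neg hx

theorem map_phi_eval {R S : Type*} [CommRing R] [CommRing S] (f : R →+* S) (Φ : ℤ[X][X])
    (x y : R) : f ((PhiR Φ x).eval y) = (PhiR Φ (f x)).eval (f y) := by
  rw [← PhiR_map, eval_map, eval₂_hom]

theorem hasExp_phi (Φ : ℤ[X][X]) {f g : ι → ℂ} {φ ψ : LaurentSeries ℂ} (hf : HasExp t f φ)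
    (hg : HasExp t g ψ) :
    HasExp t (fun x => (PhiR Φ (f x)).eval (g x)) ((PhiR Φ φ).eval ψ) := by
  let F : expRing t := ⟨(f, φ), hf⟩
  let G : expRing t := ⟨(g, ψ), hg⟩
  have h := ((PhiR Φ F).eval G).2
  change HasExp t _ _ at h
  have h2 : (((PhiR Φ F).eval G : expRing t) : (ι → ℂ) × LaurentSeries ℂ).2 =
      (PhiR Φ φ).eval ψ :=
    map_phi_eval ((RingHom.snd (ι → ℂ) (LaurentSeries ℂ)).comp (expRing t).subtype) Φ F G
  have h1 : ∀ x, (((PhiR Φ F).eval G : expRing t) : (ι → ℂ) × LaurentSeries ℂ).1 x =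
      (PhiR Φ (f x)).eval (g x) := fun x =>
    map_phi_eval ((Pi.evalRingHom (fun _ => ℂ) x).comp
        ((RingHom.fst (ι → ℂ) (LaurentSeries ℂ)).comp (expRing t).subtype)) Φ F G
  rw [h2] at h
  exact h.congr fun x => h1 x

theorem hasExp_prod {κ : Type*} (s : Finset κ) {F : κ → ι → ℂ} {Ψ : κ → LaurentSeries ℂ}
    (h : ∀ k ∈ s, HasExp t (F k) (Ψ k)) :
    HasExp t (fun x => ∏ k ∈ s, F k x) (∏ k ∈ s, Ψ k) := by
  classical
  induction s using Finset.induction_on with
  | empty => simpa using HasExp.one t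
  | insert a s ha ih =>
    rw [Finset.prod_insert ha]
    refine ((h a (Finset.mem_insert_self _ _)).mul
      (ih fun k hk => h k (Finset.mem_insert_of_mem hk))).congr fun x => ?_
    rw [Finset.prod_insert ha]

end HasExpRing

section ModEq

variable {p : ℕ} [hp : Fact p.Prime]

theorem jqC_eq : jqC = ModularCurve.jqModC ℂ := by
  rw [← toC_jqK (K := ℂ), jqK_eq]
  exact ModularCurve.coeffMap_jqModC _

theorem twist_eq (u : ℂˣ) (φ : LaurentSeries ℂ) : FermatJ.twist u φ = Fermat.Agent.S28.twist u φ := by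
  ext k
  rw [FermatJ.coeff_twist, twist_coeff]

theorem zetaC_npow (b d : ℕ) [NeZero d] : zetaC (b : ℤ) d = zetaC 1 d ^ b := by
  ext
  simp only [zetaC, Units.val_mk0, Units.val_pow_eq_pow_val, ← Complex.exp_nat_mul]
  congr 1
  push_cast
  ring

theorem isPrimitiveRoot_zetaC (d : ℕ) [hd : NeZero d] : IsPrimitiveRoot (zetaC 1 d) d := by
  rw [← IsPrimitiveRoot.coe_units_iff]
  have := Complex.isPrimitiveRoot_exp d hd.out
  simpa [zetaC] using this

theorem hasExp_jf_p : HasExp (qc p) jf (ModularCurve.qExpand ℂ p (ModularCurve.jqModC ℂ)) := by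
  have hd : Fact (1 ∣ p) := ⟨one_dvd p⟩
  have h := hasExp_jabd (K := ℂ) 1 0 1 p
  rw [toC_expAbd] at h
  have e : FermatJ.twist (zetaC 0 1) jqC = ModularCurve.jqModC ℂ := by
    have : zetaC 0 1 = 1 := by ext; simp [zetaC]
    rw [this, FermatJ.twist_one, jqC_eq]
  rw [e] at h
  have h2 : HasExp (qc p) jf (ModularCurve.qExpand ℂ (1 * (p / 1)) (ModularCurve.jqModC ℂ)) :=
    h.congr fun τ => by rw [jabd_one]
  convert h2 using 1
  congr 1
  simp

theorem hasExp_tauOf_none : HasExp (qc p) (fun τ => jf (tauOf p τ none))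
    (ModularCurve.qExpand ℂ (p * p) (ModularCurve.jqModC ℂ)) := by
  have hd : Fact (1 ∣ p) := ⟨one_dvd p⟩
  have h := hasExp_jabd (K := ℂ) p 0 1 p
  rw [toC_expAbd] at h
  have e : FermatJ.twist (zetaC 0 1) jqC = ModularCurve.jqModC ℂ := by
    have : zetaC 0 1 = 1 := by ext; simp [zetaC]
    rw [this, FermatJ.twist_one, jqC_eq]
  rw [e] at h
  convert h using 1
  congr 1
  simp

theorem hasExp_tauOf_some (k : Fin p) : HasExp (qc p) (fun τ => jf (tauOf p τ (some k)))
    (Fermat.Agent.S28.twist (zetaC 1 p ^ (k : ℕ)) (ModularCurve.jqModC ℂ)) := by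
  have hd : Fact (p ∣ p) := ⟨dvd_rfl⟩
  have h := hasExp_jabd (K := ℂ) 1 ((k : ℕ) : ℤ) p p
  rw [toC_expAbd, jqC_eq, twist_eq, zetaC_npow] at h
  have e : 1 * (p / p) = 1 := by rw [Nat.div_self hp.out.pos]
  have : ∀ (n : ℕ) [NeZero n], n = 1 → ∀ φ : LaurentSeries ℂ,
      ModularCurve.qExpand ℂ n φ = φ := by
    intro n _ hn φ
    subst hn
    exact ModularCurve.qExpand_one_apply _
  rw [this _ e] at h
  exact h

theorem phi_tau {Φ : ℤ[X][X]} (h : ModPolySpec p Φ) (τ : ℍ) :
    PhiR Φ (jf τ) = ∏ i : Option (Fin p), (X - C (jf (tauOf p τ i))) := by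
  apply Polynomial.funext
  intro x
  have h1 := hasExp_phi (qc p) Φ hasExp_jf_p (HasExp.const (qc p) x)
  have h2 := (((HasExp.const (qc p) x).sub hasExp_tauOf_none).mul
    (hasExp_prod (qc p) Finset.univ (F := fun (k : Fin p) τ => x - jf (tauOf p τ (some k)))
      fun k _ => (HasExp.const (qc p) x).sub (hasExp_tauOf_some k)))
  have h3 := h1.sub h2
  rw [h.splits ℂ (zetaC 1 p) (isPrimitiveRoot_zetaC p)] at h3
  have e : (∏ i ∈ Finset.range p,
      (X - C (Fermat.Agent.S28.twist (zetaC 1 p ^ i) (ModularCurve.jqModC ℂ)))) =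
      ∏ k : Fin p, (X - C (Fermat.Agent.S28.twist (zetaC 1 p ^ (k : ℕ)) (ModularCurve.jqModC ℂ))) :=
    Finset.prod_range _
  rw [e, eval_mul, eval_prod] at h3
  simp only [eval_sub, eval_X, eval_C] at h3
  rw [sub_self] at h3
  have h4 := h3.eq_zero_of_zero (x := τ) (qc_ne_zero p τ)
  rw [eval_prod, Fintype.prod_option]
  simp only [eval_sub, eval_X, eval_C]
  linear_combination h4

end ModEq

section JLat

open Real in
theorem riemannZeta_six : riemannZeta 6 = (π : ℂ) ^ 6 / 945 := by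
  have h := riemannZeta_two_mul_nat (k := 3) (by norm_num)
  rw [show _root_.bernoulli (2 * 3) = 1 / 42 by decide +kernel] at h
  norm_num [Nat.factorial] at h
  rw [h]
  ring

open Real in
theorem crv_Δ_periodPair {c : ℂ} (hc : c ≠ 0) (τ : ℍ) :
    (crv (periodPair c hc τ)).Δ = 4096 * (π : ℂ) ^ 12 * (c ^ 12)⁻¹ * discriminant τ := by
  rw [crv_Δ, g2_periodPair, g3_periodPair, riemannZeta_four, riemannZeta_six,
    discriminant_eq_E₄_cube_sub_E₆_sq]
  field_simp
  ring

open Real in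
theorem crv_c₄_periodPair {c : ℂ} (hc : c ≠ 0) (τ : ℍ) :
    (crv (periodPair c hc τ)).c₄ = 16 * (π : ℂ) ^ 4 * (c ^ 4)⁻¹ * E₄ τ := by
  rw [crv_c₄, g2_periodPair, riemannZeta_four]
  ring

theorem crv_Δ_ne_zero {c : ℂ} (hc : c ≠ 0) (τ : ℍ) : (crv (periodPair c hc τ)).Δ ≠ 0 := by
  rw [crv_Δ_periodPair]
  have h1 : (Real.pi : ℂ) ≠ 0 := by exact_mod_cast Real.pi_ne_zero
  have h2 := discriminant_ne_zero τ
  exact mul_ne_zero (mul_ne_zero (mul_ne_zero (by norm_num) (pow_ne_zero _ h1))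
    (inv_ne_zero (pow_ne_zero _ hc))) h2

theorem crv_c₄_cube {c : ℂ} (hc : c ≠ 0) (τ : ℍ) :
    (crv (periodPair c hc τ)).c₄ ^ 3 = jf τ * (crv (periodPair c hc τ)).Δ := by
  rw [crv_Δ_periodPair, crv_c₄_periodPair]
  have := jf_mul_discriminant τ
  linear_combination (-4096 * (Real.pi : ℂ) ^ 12 * (c ^ 12)⁻¹) * this

/-- Uniformisation: every pair `(A, B)` with `A³ ≠ 27 B²` is `(g₂, g₃)` of a lattice. -/
theorem exists_periodPair {A B : ℂ} (h : A ^ 3 - 27 * B ^ 2 ≠ 0) :
    ∃ (c : ℂ) (hc : c ≠ 0) (τ : ℍ), (periodPair c hc τ).g₂ = A ∧ (periodPair c hc τ).g₃ = B := by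
  obtain ⟨τ, hτ⟩ := jf_surjective (1728 * A ^ 3 / (A ^ 3 - 27 * B ^ 2))
  have h1 := jf_mul_discriminant τ
  have h2 := jf_sub_mul_discriminant τ
  have h0 := discriminant_ne_zero τ
  rw [hτ] at h1 h2
  -- `E₄³ : E₆² = A³ : 27 B²`
  set D := discriminant τ with hD
  have e4 : (A ^ 3 - 27 * B ^ 2) * E₄ τ ^ 3 = 1728 * D * A ^ 3 := by
    rw [← h1]; field_simp
  have e6 : (A ^ 3 - 27 * B ^ 2) * E₆ τ ^ 2 = 1728 * D * (27 * B ^ 2) := by
    rw [← h2]; field_simp; ring
  have hD2 : (1728 : ℂ) * D ≠ 0 := mul_ne_zero (by norm_num) h0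
  have hπ : (Real.pi : ℂ) ≠ 0 := by exact_mod_cast Real.pi_ne_zero
  -- normalised coefficients
  set u := (4 / 3 : ℂ) * (Real.pi : ℂ) ^ 4 with hu
  set v := (8 / 27 : ℂ) * (Real.pi : ℂ) ^ 6 with hv
  have hu0 : u ≠ 0 := mul_ne_zero (by norm_num) (pow_ne_zero _ hπ)
  have hv0 : v ≠ 0 := mul_ne_zero (by norm_num) (pow_ne_zero _ hπ)
  have huv : u ^ 3 = 27 * v ^ 2 := by rw [hu, hv]; ring
  have key : ∃ c : ℂ, c ≠ 0 ∧ u * E₄ τ = A * c ^ 4 ∧ v * E₆ τ = B * c ^ 6 := by
    rcases eq_or_ne A 0 with hA | hA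
    · have hE4 : E₄ τ = 0 := by
        rw [hA] at e4
        have : (-27 * B ^ 2) * E₄ τ ^ 3 = 0 := by linear_combination e4
        rcases mul_eq_zero.1 this with h' | h'
        · exfalso; apply h; rw [hA]; linear_combination h'
        · exact pow_eq_zero_iff (by norm_num) |>.1 h'
      have hB : B ≠ 0 := by rintro rfl; apply h; rw [hA]; ring
      have hE6 : E₆ τ ≠ 0 := by
        rcases E4_ne_zero_or_E6_ne_zero τ with h' | h'
        · exact absurd hE4 h'
        · exact h'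
      obtain ⟨c, hc⟩ := IsAlgClosed.exists_pow_nat_eq (v * E₆ τ / B) (n := 6) (by norm_num)
      refine ⟨c, ?_, ?_, ?_⟩
      · rintro rfl
        have := div_ne_zero (mul_ne_zero hv0 hE6) hB
        rw [← hc] at this
        exact this (zero_pow (by norm_num))
      · rw [hE4, hA]; ring
      · rw [hc]; field_simp
    · rcases eq_or_ne B 0 with hB | hB
      · have hE6 : E₆ τ = 0 := by
          rw [hB] at e6
          have : A ^ 3 * E₆ τ ^ 2 = 0 := by linear_combination e6
          rcases mul_eq_zero.1 this with h' | h'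
          · exact absurd (pow_eq_zero_iff (by norm_num) |>.1 h') hA
          · exact pow_eq_zero_iff (by norm_num) |>.1 h'
        have hE4 : E₄ τ ≠ 0 := by
          rcases E4_ne_zero_or_E6_ne_zero τ with h' | h'
          · exact h'
          · exact absurd hE6 h'
        obtain ⟨c, hc⟩ := IsAlgClosed.exists_pow_nat_eq (u * E₄ τ / A) (n := 4) (by norm_num)
        refine ⟨c, ?_, ?_, ?_⟩
        · rintro rfl
          have := div_ne_zero (mul_ne_zero hu0 hE4) hA
          rw [← hc] at this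
          exact this (zero_pow (by norm_num))
        · rw [hc]; field_simp
        · rw [hE6, hB]; ring
      · have hE4 : E₄ τ ≠ 0 := by
          intro h'
          rw [h'] at e4
          have : (1728 * D) * A ^ 3 = 0 := by linear_combination -e4
          rcases mul_eq_zero.1 this with h'' | h''
          · exact hD2 h''
          · exact hA (pow_eq_zero_iff (by norm_num) |>.1 h'')
        have hE6 : E₆ τ ≠ 0 := by
          intro h'
          rw [h'] at e6
          have : (1728 * D) * B ^ 2 = 0 := by linear_combination -e6 / 27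
          rcases mul_eq_zero.1 this with h'' | h''
          · exact hD2 h''
          · exact hB (pow_eq_zero_iff (by norm_num) |>.1 h'')
        obtain ⟨c, hc⟩ := IsAlgClosed.exists_pow_nat_eq ((v * E₆ τ / B) / (u * E₄ τ / A)) (n := 2)
          (by norm_num)
        have hx : u * E₄ τ / A ≠ 0 := div_ne_zero (mul_ne_zero hu0 hE4) hA
        have hy : v * E₆ τ / B ≠ 0 := div_ne_zero (mul_ne_zero hv0 hE6) hB
        have hxy : (u * E₄ τ / A) ^ 3 = (v * E₆ τ / B) ^ 2 := by
          field_simp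
          apply mul_left_cancel₀ h
          apply mul_left_cancel₀ hD2
          have t1 : (A ^ 3 - 27 * B ^ 2) * E₄ τ ^ 3 * (27 * B ^ 2) =
            A ^ 3 * ((A ^ 3 - 27 * B ^ 2) * E₆ τ ^ 2) := by rw [e4, e6]; ring
          linear_combination (1728 * D) * (u ^ 3 / 27) * t1 +
            (1728 * D) * (A ^ 3 - 27 * B ^ 2) * (A ^ 3 * E₆ τ ^ 2 / 27) * huv
        refine ⟨c, ?_, ?_, ?_⟩
        · rintro rfl
          have := div_ne_zero hy hx
          rw [← hc] at this
          exact this (zero_pow (by norm_num))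
        · have h4 : c ^ 4 = u * E₄ τ / A := by
            rw [show c ^ 4 = (c ^ 2) ^ 2 by ring, hc, div_pow, ← hxy]
            field_simp
          rw [h4]; field_simp
        · have h6 : c ^ 6 = v * E₆ τ / B := by
            rw [show c ^ 6 = (c ^ 2) ^ 3 by ring, hc, div_pow, hxy]
            field_simp
          rw [h6]; field_simp
  obtain ⟨c, hc, k4, k6⟩ := key
  refine ⟨c, hc, τ, ?_, ?_⟩
  · rw [g2_periodPair, riemannZeta_four]
    have : A = (c ^ 4)⁻¹ * (u * E₄ τ) := by rw [k4]; field_simp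
    rw [this, hu]; ring
  · rw [g3_periodPair, riemannZeta_six]
    have : B = (c ^ 6)⁻¹ * (v * E₆ τ) := by rw [k6]; field_simp
    rw [this, hv]; ring

end JLat

end Fermat.Agent.Moduli
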