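import Mathlib

/-!
# The Weierstrass function: second derivative, injectivity and surjectivity
-/

set_option autoImplicit false

noncomputable section

open Filter Topology PeriodPair

namespace Fermat.Agent.Moduli

variable (L : PeriodPair)

theorem wp_eq (z : ℂ) : ℘[L] z = L.weierstrassPExcept 0 z + 1 / z ^ 2 := by
  have := L.weierstrassPExcept_add (0 : L.lattice) z
  simp at this
  rw [← this]; simp

theorem wp'_eq (z : ℂ) : ℘'[L] z = L.derivWeierstrassPExcept 0 z - 2 / z ^ 3 := by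
  have := L.derivWeierstrassPExcept_def (0 : L.lattice) z
  simp at this
  rw [this]; ring

theorem weierstrassPExcept_zero_zero : L.weierstrassPExcept 0 0 = 0 := by
  simp [PeriodPair.weierstrassPExcept]

theorem countable_lattice : (L.lattice : Set ℂ).Countable := by
  have : Countable L.lattice := L.latticeEquivProd.toEquiv.countable_iff.2 inferInstance
  exact Set.countable_coe_iff.1 this

theorem eventually_notMem_lattice : ∀ᶠ z in 𝓝[≠] (0 : ℂ), z ∉ L.lattice := by
  filter_upwards [self_mem_nhdsWithin, mem_nhdsWithin_of_mem_nhds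
    (L.compl_lattice_sdiff_singleton_mem_nhds 0)] with z hz hz'
  simp_all

theorem isOpen_compl_lattice : IsOpen ((L.lattice : Set ℂ)ᶜ) := L.isClosed_lattice.isOpen_compl

theorem isPreconnected_compl_lattice : IsPreconnected ((L.lattice : Set ℂ)ᶜ) :=
  ((countable_lattice L).isPathConnected_compl_of_one_lt_rank
    (by simp [Complex.rank_real_complex])).isConnected.isPreconnected

/-- `z² ℘(z) → 1` -/
theorem tendsto_sq_mul_wp : Tendsto (fun z : ℂ => z ^ 2 * ℘[L] z) (𝓝[≠] 0) (𝓝 1) := by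
  have h1 : ContinuousAt (fun z : ℂ => z ^ 2 * L.weierstrassPExcept 0 z + 1) 0 := by
    have := (L.analyticAt_weierstrassPExcept 0).continuousAt
    fun_prop
  have h2 := h1.tendsto.mono_left (nhdsWithin_le_nhds (s := {0}ᶜ))
  simp only [ne_eq, OfNat.ofNat_ne_zero, not_false_eq_true, zero_pow, zero_mul, zero_add] at h2
  refine h2.congr' ?_
  filter_upwards [self_mem_nhdsWithin] with z hz
  have hz : z ≠ 0 := hz
  rw [wp_eq]
  field_simp

/-- `z³ ℘'(z) → -2` -/
theorem tendsto_cube_mul_wp' : Tendsto (fun z : ℂ => z ^ 3 * ℘'[L] z) (𝓝[≠] 0) (𝓝 (-2)) := by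
  have h1 : ContinuousAt (fun z : ℂ => z ^ 3 * L.derivWeierstrassPExcept 0 z - 2) 0 := by
    have := (L.analyticAt_derivWeierstrassPExcept 0).continuousAt
    fun_prop
  have h2 := h1.tendsto.mono_left (nhdsWithin_le_nhds (s := {0}ᶜ))
  simp only [ne_eq, OfNat.ofNat_ne_zero, not_false_eq_true, zero_pow, zero_mul, zero_sub] at h2
  refine h2.congr' ?_
  filter_upwards [self_mem_nhdsWithin] with z hz
  have hz : z ≠ 0 := hz
  rw [wp'_eq]
  field_simp

theorem exists_wp'_ne_zero : ∃ z ∉ L.lattice, ℘'[L] z ≠ 0 := by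
  have h1 : ∀ᶠ z in 𝓝[≠] (0 : ℂ), z ^ 3 * ℘'[L] z ≠ 0 :=
    (tendsto_cube_mul_wp' L).eventually_ne (by norm_num)
  obtain ⟨z, hz, hz'⟩ := (h1.and (eventually_notMem_lattice L)).exists
  exact ⟨z, hz', right_ne_zero_of_mul hz⟩

variable {L}

theorem hasDerivAt_wp {z : ℂ} (hz : z ∉ L.lattice) : HasDerivAt ℘[L] (℘'[L] z) z := by
  have h1 := (L.differentiableOn_weierstrassP).differentiableAt
    ((isOpen_compl_lattice L).mem_nhds hz)
  rw [← L.deriv_weierstrassP]
  exact h1.hasDerivAt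

theorem hasDerivAt_wp' {z : ℂ} (hz : z ∉ L.lattice) :
    HasDerivAt ℘'[L] (6 * ℘[L] z ^ 2 - L.g₂ / 2) z := by
  have hd : ∀ z ∉ L.lattice, HasDerivAt ℘'[L] (deriv ℘'[L] z) z := fun z hz =>
    ((L.differentiableOn_derivWeierstrassP).differentiableAt
      ((isOpen_compl_lattice L).mem_nhds hz)).hasDerivAt
  have hmul : ∀ z ∈ (L.lattice : Set ℂ)ᶜ,
      ℘'[L] z * (deriv ℘'[L] z - (6 * ℘[L] z ^ 2 - L.g₂ / 2)) = 0 := by
    intro z hz
    have h1 : HasDerivAt (fun z => ℘'[L] z ^ 2) (2 * ℘'[L] z * deriv ℘'[L] z) z := by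
      exact ((hd z hz).fun_pow 2).congr_deriv (by ring)
    have h2 : HasDerivAt (fun z => 4 * ℘[L] z ^ 3 - L.g₂ * ℘[L] z - L.g₃)
        (4 * (3 * ℘[L] z ^ 2 * ℘'[L] z) - L.g₂ * ℘'[L] z) z := by
      exact (((((hasDerivAt_wp hz).fun_pow 3).const_mul 4).fun_sub
        ((hasDerivAt_wp hz).const_mul L.g₂)).sub_const L.g₃).congr_deriv (by ring)
    have h3 : (fun z => ℘'[L] z ^ 2) =ᶠ[𝓝 z]
        (fun z => 4 * ℘[L] z ^ 3 - L.g₂ * ℘[L] z - L.g₃) := by
      filter_upwards [(isOpen_compl_lattice L).mem_nhds hz] with w hw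
      exact L.derivWeierstrassP_sq w hw
    have h4 := h1.unique (h2.congr_of_eventuallyEq h3)
    linear_combination h4 / 2
  have ha1 : AnalyticOnNhd ℂ ℘'[L] (L.lattice : Set ℂ)ᶜ := L.analyticOnNhd_derivWeierstrassP
  have ha2 : AnalyticOnNhd ℂ (fun z => deriv ℘'[L] z - (6 * ℘[L] z ^ 2 - L.g₂ / 2))
      (L.lattice : Set ℂ)ᶜ := by
    intro z hz
    have h1 := (ha1 z hz).deriv
    have h2 := L.analyticOnNhd_weierstrassP z hz
    fun_prop
  have key : deriv ℘'[L] z - (6 * ℘[L] z ^ 2 - L.g₂ / 2) = 0 := by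
    rcases ha1.eq_zero_or_eq_zero_of_mul_eq_zero ha2 hmul (isPreconnected_compl_lattice L) with
      h | h
    · obtain ⟨w, hw, hw'⟩ := exists_wp'_ne_zero L
      exact absurd (h w hw) hw'
    · exact h z hz
  rw [← sub_eq_zero.mp key]
  exact hd z hz

/-- two points with the same image differ by a period -/
theorem sub_mem_of_wp_eq {a b : ℂ} (ha : a ∉ L.lattice) (hb : b ∉ L.lattice)
    (h : ℘[L] a = ℘[L] b) (h' : ℘'[L] a = ℘'[L] b) : b - a ∈ L.lattice := by
  by_contra hab
  set t := b - a with ht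
  have hbt : a + t = b := by rw [ht]; ring
  set u : ℂ → ℂ := fun z => ℘[L] z - ℘[L] (z + t) with hu
  have hshift : ∀ z, z + t ∉ L.lattice → HasDerivAt (fun z => ℘[L] (z + t)) (℘'[L] (z + t)) z :=
    fun z hz => (hasDerivAt_wp hz).comp_add_const z t
  have hshift' : ∀ z, z + t ∉ L.lattice →
      HasDerivAt (fun z => ℘'[L] (z + t)) (6 * ℘[L] (z + t) ^ 2 - L.g₂ / 2) z :=
    fun z hz => (hasDerivAt_wp' hz).comp_add_const z t
  have hanS : ∀ z, z + t ∉ L.lattice → AnalyticAt ℂ (fun z => ℘[L] (z + t)) z := fun z hz =>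
    (L.analyticOnNhd_weierstrassP (z + t) hz).comp_of_eq (by fun_prop) rfl
  have hua : AnalyticAt ℂ u a :=
    (L.analyticOnNhd_weierstrassP a ha).sub (hanS a (by rwa [hbt]))
  have hnear : ∀ᶠ z in 𝓝 a, z ∉ L.lattice ∧ z + t ∉ L.lattice := by
    have h1 : ∀ᶠ z in 𝓝 a, z ∉ L.lattice := (isOpen_compl_lattice L).mem_nhds ha
    refine h1.and ?_
    have hc : ContinuousAt (fun z : ℂ => z + t) a := by fun_prop
    exact hc.eventually_mem ((isOpen_compl_lattice L).mem_nhds (by rwa [hbt]))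
  have hdu : ∀ z, z ∉ L.lattice ∧ z + t ∉ L.lattice →
      HasDerivAt u (℘'[L] z - ℘'[L] (z + t)) z := fun z hz =>
    (hasDerivAt_wp hz.1).fun_sub (hshift z hz.2)
  have hd1 : deriv u =ᶠ[𝓝 a] fun z => ℘'[L] z - ℘'[L] (z + t) := by
    filter_upwards [hnear] with z hz
    exact (hdu z hz).deriv
  have hd2 : deriv (deriv u) =ᶠ[𝓝 a] fun z => (6 * (℘[L] z + ℘[L] (z + t))) * u z := by
    filter_upwards [hd1.eventuallyEq_nhds, hnear] with z hz hz'
    rw [hz.deriv_eq, ((hasDerivAt_wp' hz'.1).fun_sub (hshift' z hz'.2)).deriv, hu]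
    ring
  have hu0 : u a = 0 := by
    simp only [hu, hbt]
    exact sub_eq_zero.mpr h
  have hu1 : deriv u a = 0 := by
    rw [hd1.eq_of_nhds, hbt, sub_eq_zero]
    exact h'
  have o1 := hua.analyticOrderAt_deriv_add_one
  have o2 := hua.deriv.analyticOrderAt_deriv_add_one
  rw [hu0] at o1
  rw [hu1] at o2
  simp only [sub_zero] at o1 o2
  have o3 : analyticOrderAt u a ≤ analyticOrderAt (deriv (deriv u)) a := by
    rw [analyticOrderAt_congr hd2]
    have h1 : AnalyticAt ℂ (fun z => 6 * (℘[L] z + ℘[L] (z + t))) a := by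
      have h2 := L.analyticOnNhd_weierstrassP a ha
      have h3 := hanS a (by rwa [hbt])
      fun_prop
    have h2 := analyticOrderAt_mul h1 hua
    have h3 : (fun z => (6 * (℘[L] z + ℘[L] (z + t))) * u z) =
        (fun z => 6 * (℘[L] z + ℘[L] (z + t))) * u := rfl
    rw [h3, h2]
    exact le_add_self
  have htop : analyticOrderAt u a = ⊤ := by
    by_contra hne
    obtain ⟨n, hn⟩ := ENat.ne_top_iff_exists.mp hne
    rw [← o1, ← o2] at hn
    have hne' : analyticOrderAt (deriv (deriv u)) a ≠ ⊤ := by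
      intro h0
      rw [h0] at hn
      simp at hn
    obtain ⟨k, hk⟩ := ENat.ne_top_iff_exists.mp hne'
    rw [← o1, ← o2, ← hk] at o3
    have : k + 1 + 1 ≤ k := by exact_mod_cast o3
    omega
  rw [analyticOrderAt_eq_top] at htop
  -- identity theorem
  set S : Set ℂ := {z | z ∉ L.lattice ∧ z + t ∉ L.lattice} with hS
  have hcount : Sᶜ.Countable := by
    have h1 : Sᶜ = (L.lattice : Set ℂ) ∪ (fun z => z - t) '' (L.lattice : Set ℂ) := by
      ext z
      simp only [hS, Set.mem_compl_iff, Set.mem_ofPred_eq, not_and_or, not_not, Set.mem_union,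
        SetLike.mem_coe, Set.mem_image]
      refine or_congr Iff.rfl ⟨fun h => ⟨z + t, h, by ring⟩, ?_⟩
      rintro ⟨w, hw, rfl⟩
      rwa [sub_add_cancel]
    rw [h1]
    exact (countable_lattice L).union ((countable_lattice L).image _)
  have hconn : IsPreconnected S := by
    have := (hcount.isPathConnected_compl_of_one_lt_rank
      (by simp [Complex.rank_real_complex])).isConnected.isPreconnected
    rwa [compl_compl] at this
  have hEq : Set.EqOn ℘[L] (fun z => ℘[L] (z + t)) S := by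
    apply AnalyticOnNhd.eqOn_of_preconnected_of_eventuallyEq (z₀ := a)
      (fun z hz => L.analyticOnNhd_weierstrassP z hz.1) (fun z hz => hanS z hz.2) hconn
      ⟨ha, by rwa [hbt]⟩
    filter_upwards [htop] with z hz
    exact sub_eq_zero.mp hz
  -- contradiction near 0
  have h1 := tendsto_sq_mul_wp L
  have h2 : Tendsto (fun z : ℂ => z ^ 2 * ℘[L] (z + t)) (𝓝[≠] 0) (𝓝 0) := by
    have h3 : ContinuousAt (fun z : ℂ => z ^ 2 * ℘[L] (z + t)) 0 := by
      have := (hanS 0 (by simpa using hab)).continuousAt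
      fun_prop
    have h4 := h3.tendsto.mono_left (nhdsWithin_le_nhds (s := {0}ᶜ))
    simpa using h4
  have h5 : (fun z : ℂ => z ^ 2 * ℘[L] z) =ᶠ[𝓝[≠] 0] fun z : ℂ => z ^ 2 * ℘[L] (z + t) := by
    have h6 : ∀ᶠ z in 𝓝 (0 : ℂ), z + t ∉ L.lattice := by
      have hc : ContinuousAt (fun z : ℂ => z + t) 0 := by fun_prop
      exact hc.eventually_mem ((isOpen_compl_lattice L).mem_nhds (by simpa using hab))
    filter_upwards [eventually_notMem_lattice L, h6.filter_mono nhdsWithin_le_nhds] with z hz hz'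
    rw [hEq ⟨hz, hz'⟩]
  have h6 := tendsto_nhds_unique (h1.congr' h5) h2
  exact one_ne_zero h6

/-- `℘(a) = ℘(b)` iff `a = ± b` modulo the lattice. -/
theorem mem_or_mem_of_wp_eq {a b : ℂ} (ha : a ∉ L.lattice) (hb : b ∉ L.lattice)
    (h : ℘[L] a = ℘[L] b) : b - a ∈ L.lattice ∨ a + b ∈ L.lattice := by
  have h1 := L.derivWeierstrassP_sq a ha
  have h2 := L.derivWeierstrassP_sq b hb
  rw [h, ← h2] at h1
  rcases sq_eq_sq_iff_eq_or_eq_neg.mp h1 with h3 | h3
  · exact Or.inl (sub_mem_of_wp_eq ha hb h h3)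
  · right
    have hb' : -b ∉ L.lattice := by rwa [neg_mem_iff]
    have := sub_mem_of_wp_eq ha hb' (by rw [L.weierstrassP_neg, h])
      (by rw [L.derivWeierstrassP_neg, h3])
    rw [show -b - a = -(a + b) by ring, neg_mem_iff] at this
    exact this

/-- `℘` is surjective onto `ℂ`. -/
theorem wp_surjective (w : ℂ) : ∃ z ∉ L.lattice, ℘[L] z = w := by
  classical
  by_contra hcon
  push Not at hcon
  set h : ℂ → ℂ := fun z => if z ∈ L.lattice then 0 else (℘[L] z - w)⁻¹ with hh
  have hper : ∀ z w : ℂ, w ∈ L.lattice → h (z + w) = h z := by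
    intro z w hw
    have h1 : z + w ∈ L.lattice ↔ z ∈ L.lattice :=
      L.lattice.toAddSubgroup.add_mem_cancel_right (y := z) hw
    simp only [hh, h1]
    split_ifs with h2
    · rfl
    · have := L.weierstrassP_add_coe z ⟨w, hw⟩
      simp only at this
      rw [this]
  have hoff : ∀ z, z ∉ L.lattice → AnalyticAt ℂ h z := by
    intro z hz
    have h1 : AnalyticAt ℂ (fun z => (℘[L] z - w)⁻¹) z :=
      ((L.analyticOnNhd_weierstrassP z hz).sub analyticAt_const).inv
        (sub_ne_zero.mpr (hcon z hz))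
    refine h1.congr ?_
    filter_upwards [(isOpen_compl_lattice L).mem_nhds hz] with y hy
    have hy : y ∉ L.lattice := hy
    simp only [hh, if_neg hy]
  have hzero : AnalyticAt ℂ h 0 := by
    have h1 : AnalyticAt ℂ
        (fun z => z ^ 2 * (1 + z ^ 2 * (L.weierstrassPExcept 0 z - w))⁻¹) 0 := by
      have h2 := L.analyticAt_weierstrassPExcept 0
      refine AnalyticAt.mul (by fun_prop) (AnalyticAt.inv (by fun_prop) ?_)
      simp
    refine h1.congr ?_
    filter_upwards [L.compl_lattice_sdiff_singleton_mem_nhds 0] with z hz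
    by_cases hz0 : z = 0
    · subst hz0
      simp [hh]
    · have hz' : z ∉ L.lattice := by simp_all
      simp only [hh, if_neg hz']
      have h2 := hcon z hz'
      rw [wp_eq] at h2 ⊢
      have h3 : 1 + z ^ 2 * (L.weierstrassPExcept 0 z - w) =
          z ^ 2 * (L.weierstrassPExcept 0 z + 1 / z ^ 2 - w) := by
        field_simp
        ring
      rw [h3, mul_inv, ← mul_assoc, mul_inv_cancel₀ (pow_ne_zero 2 hz0), one_mul]
  have hdiff : Differentiable ℂ h := by
    intro z
    by_cases hz : z ∈ L.lattice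
    · have h1 : h = fun y => h (y - z) := by
        funext y
        have := hper (y - z) z hz
        rw [sub_add_cancel] at this
        exact this
      rw [h1]
      have h2 : DifferentiableAt ℂ h (z - z) := by
        rw [sub_self]
        exact hzero.differentiableAt
      exact DifferentiableAt.comp (f := fun y : ℂ => y - z) z h2 (by fun_prop)
    · exact (hoff z hz).differentiableAt
  have hconst := hdiff.apply_eq_apply_of_bounded
    (IsZLattice.isCompact_range_of_periodic L.lattice _ hdiff.continuous hper).isBounded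
  obtain ⟨z, hz, -⟩ := exists_wp'_ne_zero L
  have h1 := hconst z 0
  have h2 : h 0 = 0 := by simp [hh]
  rw [h2] at h1
  simp only [hh, if_neg hz, inv_eq_zero, sub_eq_zero] at h1
  exact hcon z hz h1

/-- Every point of the Weierstrass cubic is parametrised. -/
theorem exists_wp_wp' {x y : ℂ} (h : y ^ 2 = 4 * x ^ 3 - L.g₂ * x - L.g₃) :
    ∃ z ∉ L.lattice, ℘[L] z = x ∧ ℘'[L] z = y := by
  obtain ⟨z, hz, hx⟩ := wp_surjective (L := L) x
  have h1 := L.derivWeierstrassP_sq z hz
  rw [hx, ← h] at h1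
  rcases sq_eq_sq_iff_eq_or_eq_neg.mp h1 with h2 | h2
  · exact ⟨z, hz, hx, h2⟩
  · refine ⟨-z, by rwa [neg_mem_iff], by rw [L.weierstrassP_neg, hx], ?_⟩
    rw [L.derivWeierstrassP_neg, h2, neg_neg]

end Fermat.Agent.Moduli
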