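import Mathlib
import Fermat.Agent.Moduli.WpBasic

/-!
# The addition theorem for the Weierstrass function
-/

set_option autoImplicit false

noncomputable section

open Filter Topology PeriodPair

namespace Fermat.Agent.Moduli

variable {L : PeriodPair}

/-- slope of the line through the points with parameters `u`, `v` (on `y² = x³ + ...`). -/
def sl (L : PeriodPair) (u v : ℂ) : ℂ := (℘'[L] u - ℘'[L] v) / (2 * (℘[L] u - ℘[L] v))

theorem wp_ne_wp {u v : ℂ} (hu : u ∉ L.lattice) (hv : v ∉ L.lattice) (h1 : u + v ∉ L.lattice)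
    (h2 : u - v ∉ L.lattice) : ℘[L] u - ℘[L] v ≠ 0 := by
  rw [sub_ne_zero]
  intro h
  rcases mem_or_mem_of_wp_eq hu hv h with h3 | h3
  · apply h2
    rw [← neg_mem_iff]
    rwa [neg_sub]
  · exact h1 h3

/-- derivative of the slope along `u + v = c`. -/
theorem hasDerivAt_sl_sub {c u : ℂ} (hu : u ∉ L.lattice) (hv : c - u ∉ L.lattice)
    (h : ℘[L] u - ℘[L] (c - u) ≠ 0) :
    HasDerivAt (fun u => sl L u (c - u)) (℘[L] u - ℘[L] (c - u)) u := by
  have hc : HasDerivAt (fun u : ℂ => c - u) (-1) u := by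
    simpa using (hasDerivAt_id u).const_sub c
  have d1 := hasDerivAt_wp hu
  have d1' := hasDerivAt_wp' hu
  have d2 : HasDerivAt (fun u => ℘[L] (c - u)) (℘'[L] (c - u) * (-1)) u :=
    (hasDerivAt_wp hv).comp u hc
  have d2' : HasDerivAt (fun u => ℘'[L] (c - u)) ((6 * ℘[L] (c - u) ^ 2 - L.g₂ / 2) * (-1)) u :=
    (hasDerivAt_wp' hv).comp u hc
  have d3 := (d1'.fun_sub d2').fun_div ((d1.fun_sub d2).const_mul 2)
    (mul_ne_zero two_ne_zero h)
  have e1 := L.derivWeierstrassP_sq u hu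
  have e2 := L.derivWeierstrassP_sq (c - u) hv
  refine d3.congr_deriv ?_
  rw [div_eq_iff (pow_ne_zero 2 (mul_ne_zero two_ne_zero h))]
  linear_combination (-2 : ℂ) * e1 + 2 * e2

/-- The `x`-coordinate of the sum of the points with parameters `u` and `v`. -/
def addx (L : PeriodPair) (u v : ℂ) : ℂ := sl L u v ^ 2 - ℘[L] u - ℘[L] v

theorem hasDerivAt_addx_sub {c u : ℂ} (hu : u ∉ L.lattice) (hv : c - u ∉ L.lattice)
    (h : ℘[L] u - ℘[L] (c - u) ≠ 0) :
    HasDerivAt (fun u => addx L u (c - u)) 0 u := by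
  have hc : HasDerivAt (fun u : ℂ => c - u) (-1) u := by
    simpa using (hasDerivAt_id u).const_sub c
  have d1 := hasDerivAt_wp hu
  have d2 : HasDerivAt (fun u => ℘[L] (c - u)) (℘'[L] (c - u) * (-1)) u :=
    (hasDerivAt_wp hv).comp u hc
  have d3 := (((hasDerivAt_sl_sub hu hv h).fun_pow 2).fun_sub d1).fun_sub d2
  refine d3.congr_deriv ?_
  have : sl L u (c - u) * (2 * (℘[L] u - ℘[L] (c - u))) = ℘'[L] u - ℘'[L] (c - u) := by
    rw [sl, div_mul_cancel₀ _ (mul_ne_zero two_ne_zero h)]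
  norm_num
  linear_combination this

/-- limit of `addx u (c - u)` for `u → 0` -/
theorem tendsto_addx {c : ℂ} (hc : c ∉ L.lattice) :
    Tendsto (fun u => addx L u (c - u)) (𝓝[≠] 0) (𝓝 (℘[L] c)) := by
  set p : ℂ → ℂ := L.weierstrassPExcept 0 with hp
  set p' : ℂ → ℂ := L.derivWeierstrassPExcept 0 with hp'
  set X : ℂ → ℂ := fun u => ℘[L] (c - u) with hX
  set Y : ℂ → ℂ := fun u => ℘'[L] (c - u) with hY
  set M : ℂ → ℂ := fun u => 1 + u ^ 2 * (p u - X u) with hM
  set N : ℂ → ℂ := fun u => u ^ 3 * (p' u - Y u) / 2 - 1 with hN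
  set E : ℂ → ℂ := fun u => u * ((p' u - Y u) / 2) * (N u - 1) -
    (2 * (p u - X u) + (p u + X u)) -
    u ^ 2 * ((p u - X u) ^ 2 + 2 * (p u - X u) * (p u + X u)) -
    u ^ 4 * ((p u - X u) ^ 2 * (p u + X u)) with hE
  have cp : ContinuousAt p 0 := (L.analyticAt_weierstrassPExcept 0).continuousAt
  have cp' : ContinuousAt p' 0 := (L.analyticAt_derivWeierstrassPExcept 0).continuousAt
  have cc : ContinuousAt (fun u : ℂ => c - u) 0 := by fun_prop
  have hc0 : c - 0 ∉ L.lattice := by simpa using hc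
  have cX : ContinuousAt X 0 := ContinuousAt.comp (f := fun u : ℂ => c - u)
    (hasDerivAt_wp hc0).continuousAt cc
  have cY : ContinuousAt Y 0 := ContinuousAt.comp (f := fun u : ℂ => c - u)
    (hasDerivAt_wp' hc0).continuousAt cc
  have hp0 : p 0 = 0 := weierstrassPExcept_zero_zero L
  have hX0 : X 0 = ℘[L] c := by simp [hX]
  have cM : ContinuousAt M 0 := by fun_prop
  have cE : ContinuousAt E 0 := by fun_prop
  have hM0 : M 0 = 1 := by simp [hM]
  have hE0 : E 0 = ℘[L] c := by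
    simp [hE, hp0, hX0]
    ring
  have h1 : Tendsto (fun u => E u / M u ^ 2) (𝓝[≠] 0) (𝓝 (℘[L] c)) := by
    have h2 : ContinuousAt (fun u => E u / M u ^ 2) 0 :=
      cE.div (cM.pow 2) (by rw [hM0]; norm_num)
    have h3 := h2.tendsto.mono_left (nhdsWithin_le_nhds (s := {0}ᶜ))
    rwa [hM0, hE0, one_pow, div_one] at h3
  refine h1.congr' ?_
  have hMne : ∀ᶠ u in 𝓝[≠] (0 : ℂ), M u ≠ 0 :=
    (cM.eventually_ne (by rw [hM0]; exact one_ne_zero)).filter_mono nhdsWithin_le_nhds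
  filter_upwards [hMne, self_mem_nhdsWithin] with u hMu hu
  have hu : u ≠ 0 := hu
  have hxu : ℘[L] u = p u + 1 / u ^ 2 := wp_eq L u
  have hyu : ℘'[L] u = p' u - 2 / u ^ 3 := wp'_eq L u
  have hsl : sl L u (c - u) = N u / (u * M u) := by
    rw [sl, hxu, hyu]
    show (p' u - 2 / u ^ 3 - Y u) / (2 * (p u + 1 / u ^ 2 - X u)) = _
    have h2 : p u + 1 / u ^ 2 - X u = M u / u ^ 2 := by
      simp only [hM]
      field_simp
      ring
    have h3 : p' u - 2 / u ^ 3 - Y u = 2 * N u / u ^ 3 := by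
      simp only [hN]
      field_simp
      ring
    rw [h2, h3]
    field_simp
  rw [addx, hsl, hxu]
  show E u / M u ^ 2 = (N u / (u * M u)) ^ 2 - (p u + 1 / u ^ 2) - X u
  rw [div_eq_iff (pow_ne_zero 2 hMu)]
  have h4 : ((N u / (u * M u)) ^ 2 - (p u + 1 / u ^ 2) - X u) * M u ^ 2 =
      (N u ^ 2 - (1 + u ^ 2 * (p u + X u)) * M u ^ 2) / u ^ 2 := by
    field_simp
    ring
  rw [h4, eq_div_iff (pow_ne_zero 2 hu)]
  simp only [hE, hN, hM]
  ring

/-- The addition theorem, `x`-coordinate. -/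
theorem wp_add {u v : ℂ} (hu : u ∉ L.lattice) (hv : v ∉ L.lattice) (h1 : u + v ∉ L.lattice)
    (h2 : u - v ∉ L.lattice) : ℘[L] (u + v) = addx L u v := by
  set c := u + v with hc
  have hcv : c - u = v := by rw [hc]; ring
  set D : Set ℂ := {w | w ∉ L.lattice ∧ c - w ∉ L.lattice ∧ 2 * w - c ∉ L.lattice} with hD
  have hDc : Dᶜ = (L.lattice : Set ℂ) ∪ ((fun z => c - z) '' (L.lattice : Set ℂ) ∪
      (fun z => (z + c) / 2) '' (L.lattice : Set ℂ)) := by
    ext z
    simp only [hD, Set.mem_compl_iff, Set.mem_ofPred_eq, not_and_or, not_not, Set.mem_union,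
      SetLike.mem_coe, Set.mem_image]
    refine or_congr Iff.rfl (or_congr ⟨fun h => ⟨c - z, h, by ring⟩, ?_⟩
      ⟨fun h => ⟨2 * z - c, h, by ring⟩, ?_⟩)
    · rintro ⟨w, hw, rfl⟩
      rwa [sub_sub_cancel]
    · rintro ⟨w, hw, rfl⟩
      rwa [mul_div_cancel₀ _ (two_ne_zero), add_sub_cancel_right]
  have hcount : Dᶜ.Countable := by
    rw [hDc]
    exact (countable_lattice L).union
      (((countable_lattice L).image _).union ((countable_lattice L).image _))
  have hconn : IsPreconnected D := by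
    have := (hcount.isPathConnected_compl_of_one_lt_rank
      (by simp [Complex.rank_real_complex])).isConnected.isPreconnected
    rwa [compl_compl] at this
  have hopen : IsOpen D := by
    have h3 : D = (L.lattice : Set ℂ)ᶜ ∩ ((fun w => c - w) ⁻¹' (L.lattice : Set ℂ)ᶜ ∩
      (fun w => 2 * w - c) ⁻¹' (L.lattice : Set ℂ)ᶜ) := rfl
    rw [h3]
    exact (isOpen_compl_lattice L).inter (((isOpen_compl_lattice L).preimage (by fun_prop)).inter
      ((isOpen_compl_lattice L).preimage (by fun_prop)))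
  have hne : ∀ w ∈ D, ℘[L] w - ℘[L] (c - w) ≠ 0 := fun w hw =>
    wp_ne_wp hw.1 hw.2.1 (by rwa [add_sub_cancel]) (by
      have : w - (c - w) = 2 * w - c := by ring
      rw [this]
      exact hw.2.2)
  have hder : ∀ w ∈ D, HasDerivAt (fun w => addx L w (c - w)) 0 w := fun w hw =>
    hasDerivAt_addx_sub hw.1 hw.2.1 (hne w hw)
  have hconst : ∀ w ∈ D, addx L w (c - w) = addx L u (c - u) := fun w hw =>
    hopen.is_const_of_deriv_eq_zero hconn
      (fun z hz => (hder z hz).differentiableAt.differentiableWithinAt)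
      (fun z hz => (hder z hz).deriv) hw
      ⟨hu, by rwa [hcv], by
        have : 2 * u - c = u - v := by rw [hc]; ring
        rwa [this]⟩
  have hev : ∀ᶠ w in 𝓝[≠] (0 : ℂ), w ∈ D := by
    have h3 : ∀ᶠ w in 𝓝 (0 : ℂ), c - w ∉ L.lattice := by
      have hcc : ContinuousAt (fun w : ℂ => c - w) 0 := by fun_prop
      exact hcc.eventually_mem ((isOpen_compl_lattice L).mem_nhds (by simpa using h1))
    have h4 : ∀ᶠ w in 𝓝 (0 : ℂ), 2 * w - c ∉ L.lattice := by
      have hcc : ContinuousAt (fun w : ℂ => 2 * w - c) 0 := by fun_prop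
      refine hcc.eventually_mem ((isOpen_compl_lattice L).mem_nhds ?_)
      simp only [mul_zero, zero_sub]
      show -c ∉ L.lattice
      rwa [neg_mem_iff]
    filter_upwards [eventually_notMem_lattice L, h3.filter_mono nhdsWithin_le_nhds,
      h4.filter_mono nhdsWithin_le_nhds] with w a b c using ⟨a, b, c⟩
  have h5 : Tendsto (fun w => addx L w (c - w)) (𝓝[≠] 0) (𝓝 (addx L u (c - u))) := by
    refine tendsto_const_nhds.congr' ?_
    filter_upwards [hev] with w hw
    exact (hconst w hw).symm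
  have h6 := tendsto_nhds_unique (tendsto_addx h1) h5
  rw [h6, hcv]

/-- The addition theorem, `y`-coordinate. -/
theorem wp'_add {u v : ℂ} (hu : u ∉ L.lattice) (hv : v ∉ L.lattice) (h1 : u + v ∉ L.lattice)
    (h2 : u - v ∉ L.lattice) :
    ℘'[L] (u + v) = -(2 * (sl L u v * (addx L u v - ℘[L] u)) + ℘'[L] u) := by
  have hne := wp_ne_wp hu hv h1 h2
  have d1 := hasDerivAt_wp hu
  have d1' := hasDerivAt_wp' hu
  have d3 : HasDerivAt (fun u => sl L u v)
      (((6 * ℘[L] u ^ 2 - L.g₂ / 2) * (2 * (℘[L] u - ℘[L] v)) -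
        (℘'[L] u - ℘'[L] v) * (2 * ℘'[L] u)) / (2 * (℘[L] u - ℘[L] v)) ^ 2) u :=
    (d1'.sub_const (℘'[L] v)).fun_div ((d1.sub_const (℘[L] v)).const_mul 2)
      (mul_ne_zero two_ne_zero hne)
  have d4 := ((d3.fun_pow 2).fun_sub d1).sub_const (℘[L] v)
  have d5 : HasDerivAt (fun u => ℘[L] (u + v)) (℘'[L] (u + v)) u :=
    (hasDerivAt_wp h1).comp_add_const u v
  have hev : (fun u => ℘[L] (u + v)) =ᶠ[𝓝 u] fun u => sl L u v ^ 2 - ℘[L] u - ℘[L] v := by
    have e1 : ∀ᶠ w in 𝓝 u, w ∉ L.lattice := (isOpen_compl_lattice L).mem_nhds hu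
    have e2 : ∀ᶠ w in 𝓝 u, w + v ∉ L.lattice := by
      have hcc : ContinuousAt (fun w : ℂ => w + v) u := by fun_prop
      exact hcc.eventually_mem ((isOpen_compl_lattice L).mem_nhds h1)
    have e3 : ∀ᶠ w in 𝓝 u, w - v ∉ L.lattice := by
      have hcc : ContinuousAt (fun w : ℂ => w - v) u := by fun_prop
      exact hcc.eventually_mem ((isOpen_compl_lattice L).mem_nhds h2)
    filter_upwards [e1, e2, e3] with w hw1 hw2 hw3
    exact wp_add hw1 hv hw2 hw3
  have d6 := d5.unique (d4.congr_of_eventuallyEq hev)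
  rw [d6]
  have e1 := L.derivWeierstrassP_sq u hu
  have e2 := L.derivWeierstrassP_sq v hv
  rw [addx]
  simp only [sl]
  norm_num
  field_simp
  linear_combination (℘'[L] u - ℘'[L] v) * (-(e1 - e2))

end Fermat.Agent.Moduli
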