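import Mathlib
import Fermat.Agent.Moduli.WpAdd

/-!
# Uniformisation: the isomorphism `ℂ / Λ ≃ E_Λ(ℂ)`
-/

set_option autoImplicit false

noncomputable section

open Filter Topology PeriodPair

namespace Fermat.Agent.Moduli

variable (L : PeriodPair)

/-- The Weierstrass curve `y² = x³ - (g₂/4) x - g₃/4`. -/
def crv : WeierstrassCurve ℂ := ⟨0, 0, 0, -L.g₂ / 4, -L.g₃ / 4⟩

theorem crv_Δ : (crv L).Δ = L.g₂ ^ 3 - 27 * L.g₃ ^ 2 := by
  simp only [crv, WeierstrassCurve.Δ, WeierstrassCurve.b₂, WeierstrassCurve.b₄,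
    WeierstrassCurve.b₆, WeierstrassCurve.b₈]
  ring

theorem crv_c₄ : (crv L).c₄ = 12 * L.g₂ := by
  simp only [crv, WeierstrassCurve.c₄, WeierstrassCurve.b₂, WeierstrassCurve.b₄]
  ring

theorem crv_c₆ : (crv L).c₆ = 216 * L.g₃ := by
  simp only [crv, WeierstrassCurve.c₆, WeierstrassCurve.b₂, WeierstrassCurve.b₄,
    WeierstrassCurve.b₆]
  ring

variable {L}

theorem equation_wp {z : ℂ} (hz : z ∉ L.lattice) :
    (crv L).toAffine.Equation (℘[L] z) (℘'[L] z / 2) := by
  rw [WeierstrassCurve.Affine.equation_iff]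
  simp only [crv]
  linear_combination (1 / 4 : ℂ) * L.derivWeierstrassP_sq z hz

variable [hE : (crv L).IsElliptic]

/-- The parametrisation `ℂ → E_Λ(ℂ)`. -/
def toPt (z : ℂ) : (crv L).toAffine.Point := by
  classical
  exact if h : z ∈ L.lattice then 0 else
    .some (℘[L] z) (℘'[L] z / 2)
      ((crv L).toAffine.equation_iff_nonsingular.mp (equation_wp h))

theorem toPt_of_mem {z : ℂ} (h : z ∈ L.lattice) : toPt (L := L) z = 0 := by
  rw [toPt, dif_pos h]

theorem toPt_of_notMem {z : ℂ} (h : z ∉ L.lattice) : toPt (L := L) z =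
    .some (℘[L] z) (℘'[L] z / 2)
      ((crv L).toAffine.equation_iff_nonsingular.mp (equation_wp h)) := by
  rw [toPt, dif_neg h]

theorem toPt_eq_zero_iff {z : ℂ} : toPt (L := L) z = 0 ↔ z ∈ L.lattice := by
  constructor
  · intro h
    by_contra hz
    rw [toPt_of_notMem hz] at h
    exact absurd h (by simp)
  · exact toPt_of_mem

theorem toPt_add_period (z : ℂ) {w : ℂ} (hw : w ∈ L.lattice) :
    toPt (L := L) (z + w) = toPt z := by
  have h1 : z + w ∈ L.lattice ↔ z ∈ L.lattice :=
    L.lattice.toAddSubgroup.add_mem_cancel_right (y := z) hw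
  by_cases hz : z ∈ L.lattice
  · rw [toPt_of_mem hz, toPt_of_mem (h1.mpr hz)]
  · rw [toPt_of_notMem hz, toPt_of_notMem (fun h => hz (h1.mp h))]
    have h2 := L.weierstrassP_add_coe z ⟨w, hw⟩
    have h3 := L.derivWeierstrassP_add_coe z ⟨w, hw⟩
    simp only at h2 h3
    simp only [h2, h3]

theorem toPt_neg (z : ℂ) : toPt (L := L) (-z) = - toPt z := by
  by_cases hz : z ∈ L.lattice
  · rw [toPt_of_mem hz, toPt_of_mem (neg_mem hz), neg_zero]
  · rw [toPt_of_notMem hz, toPt_of_notMem (by rwa [neg_mem_iff]),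
      WeierstrassCurve.Affine.Point.neg_some]
    simp only [L.weierstrassP_neg, L.derivWeierstrassP_neg, WeierstrassCurve.Affine.negY, crv,
      WeierstrassCurve.Affine.Point.some.injEq, true_and]
    ring

theorem toPt_add_generic {u v : ℂ} (hu : u ∉ L.lattice) (hv : v ∉ L.lattice)
    (h1 : u + v ∉ L.lattice) (h2 : u - v ∉ L.lattice) :
    toPt (L := L) (u + v) = toPt u + toPt v := by
  have hne := wp_ne_wp hu hv h1 h2
  rw [toPt_of_notMem hu, toPt_of_notMem hv, toPt_of_notMem h1,
    WeierstrassCurve.Affine.Point.add_of_X_ne (sub_ne_zero.mp hne)]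
  have hsl : (crv L).toAffine.slope (℘[L] u) (℘[L] v) (℘'[L] u / 2) (℘'[L] v / 2) = sl L u v := by
    rw [WeierstrassCurve.Affine.slope_of_X_ne (sub_ne_zero.mp hne), sl]
    field_simp
  simp only [WeierstrassCurve.Affine.Point.some.injEq]
  rw [hsl]
  constructor
  · rw [wp_add hu hv h1 h2, addx]
    simp only [WeierstrassCurve.Affine.addX, crv]
    ring
  · rw [wp'_add hu hv h1 h2, addx]
    simp only [WeierstrassCurve.Affine.addY, WeierstrassCurve.Affine.negAddY,
      WeierstrassCurve.Affine.negY, WeierstrassCurve.Affine.addX, crv]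
    ring

omit hE in
/-- A complex number avoiding countably many conditions. -/
theorem exists_generic (S : Set ℂ) (hS : S.Countable) : ∃ w, w ∉ S := by
  obtain ⟨w, hw⟩ := (hS.dense_compl ℝ (E := ℂ)).nonempty
  exact ⟨w, hw⟩

theorem toPt_add (u v : ℂ) : toPt (L := L) (u + v) = toPt u + toPt v := by
  have hsub : ∀ {a b : ℂ}, a ∈ L.lattice → toPt (L := L) (b + a) = toPt b := fun ha =>
    toPt_add_period _ ha
  by_cases huv : u + v ∈ L.lattice
  · have h1 : toPt (L := L) v = toPt (-u) := by
      rw [← toPt_add_period (-u) huv]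
      congr 1
      ring
    rw [toPt_of_mem huv, h1, toPt_neg, add_neg_cancel]
  · -- choose a generic `w`
    let T : Set ℂ := (L.lattice : Set ℂ) ∪ ((fun z => z - u) '' (L.lattice : Set ℂ) ∪
      ((fun z => u - z) '' (L.lattice : Set ℂ) ∪ ((fun z => v - z) '' (L.lattice : Set ℂ) ∪
      ((fun z => z - v) '' (L.lattice : Set ℂ) ∪
      (fun z => (z - (u - v)) / 2) '' (L.lattice : Set ℂ)))))
    have hT : T.Countable := (countable_lattice L).union (((countable_lattice L).image _).union
      (((countable_lattice L).image _).union (((countable_lattice L).image _).union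
      (((countable_lattice L).image _).union ((countable_lattice L).image _)))))
    obtain ⟨w, hw⟩ := exists_generic T hT
    simp only [T, Set.mem_union, SetLike.mem_coe, Set.mem_image, not_or, not_exists,
      not_and] at hw
    obtain ⟨w1, w2, w3, w4, w5, w6⟩ := hw
    have a1 : u + w ∉ L.lattice := fun h => w2 _ h (by ring)
    have a2 : u - w ∉ L.lattice := fun h => w3 _ h (by ring)
    have a3 : v - w ∉ L.lattice := fun h => w4 _ h (by ring)
    have a4 : v + w ∉ L.lattice := fun h => w5 _ h (by ring)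
    have a5 : (u + w) - (v - w) ∉ L.lattice := fun h => w6 _ h (by ring)
    have e1 : toPt (L := L) (u + v) = toPt (u + w) + toPt (v - w) := by
      rw [← toPt_add_generic a1 a3 (by rwa [show u + w + (v - w) = u + v by ring]) a5]
      congr 1
      ring
    have e2 : toPt (L := L) (u + w) = toPt u + toPt w := by
      by_cases hu : u ∈ L.lattice
      · rw [toPt_of_mem hu, zero_add, add_comm u w, toPt_add_period _ hu]
      · exact toPt_add_generic hu w1 a1 a2
    have e3 : toPt (L := L) (v - w) = toPt v - toPt w := by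
      rw [sub_eq_add_neg, sub_eq_add_neg, ← toPt_neg]
      by_cases hv : v ∈ L.lattice
      · rw [toPt_of_mem hv, zero_add, add_comm v (-w), toPt_add_period _ hv]
      · exact toPt_add_generic hv (by rwa [neg_mem_iff]) (by rwa [← sub_eq_add_neg])
          (by rwa [sub_neg_eq_add])
    rw [e1, e2, e3]
    abel

variable (L) in
/-- The uniformisation homomorphism. -/
def unif : ℂ →+ (crv L).toAffine.Point where
  toFun := toPt
  map_zero' := toPt_of_mem (zero_mem _)
  map_add' := toPt_add

theorem unif_apply (z : ℂ) : unif L z = toPt z := rfl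

theorem unif_eq_zero_iff {z : ℂ} : unif L z = 0 ↔ z ∈ L.lattice := toPt_eq_zero_iff

theorem unif_surjective : Function.Surjective (unif L) := by
  intro P
  rcases P with _ | ⟨x, y, h⟩
  · exact ⟨0, map_zero _⟩
  · have h1 := (crv L).toAffine.equation_iff_nonsingular.mpr h
    rw [WeierstrassCurve.Affine.equation_iff] at h1
    simp only [crv] at h1
    obtain ⟨z, hz, hx, hy⟩ := exists_wp_wp' (L := L) (x := x) (y := 2 * y) (by
      linear_combination 4 * h1)
    refine ⟨z, ?_⟩
    rw [unif_apply, toPt_of_notMem hz]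
    simp only [WeierstrassCurve.Affine.Point.some.injEq]
    refine ⟨hx, ?_⟩
    rw [hy]
    ring

end Fermat.Agent.Moduli
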